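/-
T1B / cell AD (ALG-DESCENT), brick AD-frames (helper21): **descent of frames from a "completed" chart
ring to the algebraic one** (elementary; no Beauville–Laszlo, no projectivity).  Mathlib only.

Setting (`Setting φ ι π`): fields `ι : F → F̂`, rings `R → F`, `R̂ → F̂` with `φ : R → R̂` compatible,
`π ∈ R` nonzero in `F`, and
  (S1) `R̂ = φ R + πⁿ R̂` for all `n`;
  (S2) `x ∈ R[1/π]` (in `F`) and `ι x ∈ R̂` imply `x ∈ R`.
For `R`-submodules `I_K ⊆ F` (the frame on the generic fibre) and `R̂`-submodules `Î ⊆ F̂` put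
  `pull I_K Î := {x ∈ I_K | ι x ∈ Î}`,  `push I := R̂-span of ι I`.
Then, if `Î[1/π] = I_K · R̂[1/π]` (`hA`, `hB`):
* `push_pull`         : `(pull I_K Î) · R̂ = Î`;
* `pull_mul_pull`     : `Î Ĵ = R̂`, `I_K J_K = R[1/π]` ⟹ `pull I_K Î * pull J_K Ĵ = 1`;
* `pull_pow_eq_span`  : `Î ^ p = f R̂`, `I_K ^ p = f R[1/π]` ⟹ `(pull I_K Î) ^ p = f R`.
These are the hypotheses `I_j * J_j = 1`, `I_j ^ p = span {f}` of `Hol80.delta_mem_Hol` over the
algebraic chart ring.
-/
import Mathlib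

set_option autoImplicit false

namespace Fermat.Agent.T1B.AD21.Frames

variable {R Rh F Fh : Type*} [CommRing R] [CommRing Rh] [Field F] [Field Fh]
  [Algebra R F] [Algebra Rh Fh]

/-- The hypotheses on `R → R̂`, `F → F̂`, `π`. -/
structure Setting (φ : R →+* Rh) (ι : F →+* Fh) (π : R) : Prop where
  compat : ∀ r : R, algebraMap Rh Fh (φ r) = ι (algebraMap R F r)
  pi_ne : algebraMap R F π ≠ 0
  approx : ∀ (n : ℕ) (x : Rh), ∃ (r : R) (s : Rh), x = φ r + φ π ^ n * s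
  sat : ∀ (x : F) (n : ℕ), algebraMap R F π ^ n * x ∈ Set.range (algebraMap R F) →
    ι x ∈ Set.range (algebraMap Rh Fh) → x ∈ Set.range (algebraMap R F)

/-- (S2) from injectivity of `R̂ → F̂` and of `R/πⁿ → R̂/πⁿ`. -/
theorem sat_of_injective {φ : R →+* Rh} {ι : F →+* Fh} {π : R}
    (compat : ∀ r : R, algebraMap Rh Fh (φ r) = ι (algebraMap R F r))
    (pi_ne : algebraMap R F π ≠ 0) (hinj : Function.Injective (algebraMap Rh Fh))
    (h : ∀ (n : ℕ) (r : R), φ r ∈ Ideal.span {φ π ^ n} → r ∈ Ideal.span {π ^ n})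
    (x : F) (n : ℕ) (hx : algebraMap R F π ^ n * x ∈ Set.range (algebraMap R F))
    (hιx : ι x ∈ Set.range (algebraMap Rh Fh)) : x ∈ Set.range (algebraMap R F) := by
  obtain ⟨r, hr⟩ := hx
  obtain ⟨y, hy⟩ := hιx
  have h1 : φ r = φ π ^ n * y := by
    apply hinj
    rw [compat, hr, map_mul, map_pow, map_mul, map_pow, compat, hy]
  have h2 : r ∈ Ideal.span {π ^ n} := h n r (by rw [h1]; exact Ideal.mul_mem_right _ _ (Ideal.mem_span_singleton_self _))
  obtain ⟨r', hr'⟩ := Ideal.mem_span_singleton'.mp h2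
  refine ⟨r', ?_⟩
  have h3 : algebraMap R F π ^ n * algebraMap R F r' = algebraMap R F π ^ n * x := by
    rw [← hr, ← hr', map_mul, map_pow, mul_comm]
  exact mul_left_cancel₀ (pow_ne_zero n pi_ne) h3

section Ops

variable {φ : R →+* Rh} {ι : F →+* Fh} {π : R}

/-- `{x ∈ I_K | ι x ∈ Î}`. -/
def pull (S : Setting φ ι π) (IK : Submodule R F) (Ih : Submodule Rh Fh) : Submodule R F where
  carrier := {x | x ∈ IK ∧ ι x ∈ Ih}
  add_mem' := fun {x y} hx hy => ⟨IK.add_mem hx.1 hy.1, by rw [map_add]; exact Ih.add_mem hx.2 hy.2⟩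
  zero_mem' := ⟨IK.zero_mem, by rw [map_zero]; exact Ih.zero_mem⟩
  smul_mem' := fun r x hx => ⟨IK.smul_mem r hx.1, by
    rw [Algebra.smul_def, map_mul, ← S.compat, ← Algebra.smul_def]
    exact Ih.smul_mem (φ r) hx.2⟩

theorem mem_pull {S : Setting φ ι π} {IK : Submodule R F} {Ih : Submodule Rh Fh} {x : F} :
    x ∈ pull S IK Ih ↔ x ∈ IK ∧ ι x ∈ Ih := Iff.rfl

theorem pull_le (S : Setting φ ι π) (IK : Submodule R F) (Ih : Submodule Rh Fh) :
    pull S IK Ih ≤ IK := fun _ hx => hx.1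

variable (Rh ι) in
/-- The `R̂`-span of `ι I`. -/
def push (I : Submodule R F) : Submodule Rh Fh := Submodule.span Rh (ι '' (I : Set F))

theorem map_mem_push {I : Submodule R F} {x : F} (hx : x ∈ I) : ι x ∈ push Rh ι I :=
  Submodule.subset_span ⟨x, hx, rfl⟩

theorem push_le_iff {I : Submodule R F} {P : Submodule Rh Fh} :
    push Rh ι I ≤ P ↔ ∀ x ∈ I, ι x ∈ P := by
  rw [push, Submodule.span_le]
  constructor
  · intro h x hx
    exact h ⟨x, hx, rfl⟩
  · rintro h _ ⟨x, hx, rfl⟩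
    exact h x hx

theorem push_mono {I J : Submodule R F} (h : I ≤ J) : push Rh ι I ≤ push Rh ι J :=
  push_le_iff.mpr fun _ hx => map_mem_push (h hx)

theorem push_one (S : Setting φ ι π) : push Rh ι (1 : Submodule R F) = 1 := by
  apply le_antisymm
  · rw [push_le_iff]
    intro x hx
    obtain ⟨r, rfl⟩ := Submodule.mem_one.mp hx
    rw [← S.compat]
    exact Submodule.mem_one.mpr ⟨φ r, rfl⟩
  · rw [Submodule.one_le]
    have : (1 : F) ∈ (1 : Submodule R F) := Submodule.mem_one.mpr ⟨1, map_one _⟩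
    have h := map_mem_push (Rh := Rh) (ι := ι) this
    rwa [map_one] at h

theorem push_mul (I J : Submodule R F) : push Rh ι (I * J) = push Rh ι I * push Rh ι J := by
  apply le_antisymm
  · rw [push_le_iff]
    intro x hx
    induction hx using Submodule.mul_induction_on' with
    | mem_mul_mem h hh g hg =>
      rw [map_mul]
      exact Submodule.mul_mem_mul (map_mem_push hh) (map_mem_push hg)
    | add x _ y _ hx hy =>
      rw [map_add]
      exact add_mem hx hy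
  · rw [push, push, Submodule.span_mul_span, Submodule.span_le]
    rintro _ ⟨_, ⟨h, hh, rfl⟩, _, ⟨g, hg, rfl⟩, rfl⟩
    show ι h * ι g ∈ push Rh ι (I * J)
    rw [← map_mul]
    exact map_mem_push (Submodule.mul_mem_mul hh hg)

theorem push_pow (S : Setting φ ι π) (I : Submodule R F) (n : ℕ) :
    push Rh ι (I ^ n) = push Rh ι I ^ n := by
  induction n with
  | zero => rw [pow_zero, pow_zero, push_one S]
  | succ n ih => rw [pow_succ, pow_succ, push_mul, ih]

/-! ### (L1): `pull` generates `Î` -/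

/-- every element of `I_K · R̂` is congruent to an element of `ι I_K` modulo `(pull I_K Î) · R̂`. -/
theorem exists_sub_mem_push_pull (S : Setting φ ι π) (IK : Submodule R F) (Ih : Submodule Rh Fh)
    (hA : ∀ x ∈ IK, ∃ n : ℕ, ι (algebraMap R F π ^ n * x) ∈ Ih) {g : Fh}
    (hg : g ∈ push Rh ι IK) : ∃ x ∈ IK, g - ι x ∈ push Rh ι (pull S IK Ih) := by
  unfold push at hg
  induction hg using Submodule.span_induction with
  | mem y hy =>
    obtain ⟨x, hx, rfl⟩ := hy
    exact ⟨x, hx, by rw [sub_self]; exact Submodule.zero_mem _⟩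
  | zero => exact ⟨0, IK.zero_mem, by rw [map_zero, sub_self]; exact Submodule.zero_mem _⟩
  | add y z _ _ hy hz =>
    obtain ⟨x, hx, hxy⟩ := hy
    obtain ⟨x', hx', hxz⟩ := hz
    refine ⟨x + x', IK.add_mem hx hx', ?_⟩
    have : y + z - ι (x + x') = (y - ι x) + (z - ι x') := by rw [map_add]; ring
    rw [this]
    exact Submodule.add_mem _ hxy hxz
  | smul a y _ hy =>
    obtain ⟨x, hx, hxy⟩ := hy
    obtain ⟨n, hn⟩ := hA x hx
    obtain ⟨r, s, hrs⟩ := S.approx n a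
    refine ⟨r • x, IK.smul_mem r hx, ?_⟩
    have hπx : algebraMap R F π ^ n * x ∈ pull S IK Ih := by
      refine ⟨?_, hn⟩
      rw [← map_pow, ← Algebra.smul_def]
      exact IK.smul_mem _ hx
    have key : a • y - ι (r • x) = a • (y - ι x) + s • ι (algebraMap R F π ^ n * x) := by
      rw [hrs, Algebra.smul_def r x, map_mul, map_mul, map_pow, ← S.compat, ← S.compat,
        Algebra.smul_def, Algebra.smul_def, Algebra.smul_def, map_add, map_mul, map_pow]
      ring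
    rw [key]
    exact Submodule.add_mem _ (Submodule.smul_mem _ a hxy)
      (Submodule.smul_mem _ s (map_mem_push hπx))

/-- **(L1)** `(pull I_K Î) · R̂ = Î`, if `Î[1/π] = I_K · R̂[1/π]`. -/
theorem push_pull (S : Setting φ ι π) (IK : Submodule R F) (Ih : Submodule Rh Fh)
    (hA : ∀ x ∈ IK, ∃ n : ℕ, ι (algebraMap R F π ^ n * x) ∈ Ih) (hB : Ih ≤ push Rh ι IK) :
    push Rh ι (pull S IK Ih) = Ih := by
  have hle : push Rh ι (pull S IK Ih) ≤ Ih := push_le_iff.mpr fun x hx => hx.2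
  refine le_antisymm hle fun g hg => ?_
  obtain ⟨x, hx, hd⟩ := exists_sub_mem_push_pull S IK Ih hA (hB hg)
  have hιx : ι x ∈ Ih := by
    have : ι x = g - (g - ι x) := by ring
    rw [this]
    exact Ih.sub_mem hg (hle hd)
  have : g = ι x + (g - ι x) := by ring
  rw [this]
  exact Submodule.add_mem _ (map_mem_push ⟨hx, hιx⟩) hd

/-- `hB` from the `R̂[1/π]`-form when `I_K` is stable under `π⁻¹`. -/
theorem le_push_of_stable (S : Setting φ ι π) (IK : Submodule R F) (Ih : Submodule Rh Fh)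
    (hst : ∀ x ∈ IK, (algebraMap R F π)⁻¹ * x ∈ IK)
    (h : ∀ g ∈ Ih, ∃ n : ℕ, ι (algebraMap R F π) ^ n * g ∈ push Rh ι IK) : Ih ≤ push Rh ι IK := by
  have hstep : ∀ g ∈ push Rh ι IK, (ι (algebraMap R F π))⁻¹ * g ∈ push Rh ι IK := by
    intro g hg
    unfold push at hg
    induction hg using Submodule.span_induction with
    | mem y hy =>
      obtain ⟨x, hx, rfl⟩ := hy
      rw [← map_inv₀, ← map_mul]
      exact map_mem_push (hst x hx)
    | zero => rw [mul_zero]; exact Submodule.zero_mem _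
    | add y z _ _ hy hz => rw [mul_add]; exact Submodule.add_mem _ hy hz
    | smul a y _ hy => rw [mul_smul_comm]; exact Submodule.smul_mem _ a hy
  have hpow : ∀ (n : ℕ) (g : Fh), ι (algebraMap R F π) ^ n * g ∈ push Rh ι IK → g ∈ push Rh ι IK := by
    intro n
    induction n with
    | zero => intro g hg; simpa using hg
    | succ n ih =>
      intro g hg
      have h0 : ι (algebraMap R F π) ≠ 0 := (map_ne_zero ι).mpr S.pi_ne
      have h1 := hstep _ hg
      have e : (ι (algebraMap R F π))⁻¹ * (ι (algebraMap R F π) ^ (n + 1) * g) =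
          ι (algebraMap R F π) ^ n * g := by
        rw [pow_succ]
        field_simp
      rw [e] at h1
      exact ih g h1
  intro g hg
  obtain ⟨n, hn⟩ := h g hg
  exact hpow n g hn

/-! ### the trick: an ideal of `R` which is the unit ideal in `R̂` and in `R[1/π]` is the unit ideal -/

/-- elements of `𝔞 · R̂` are congruent to elements of `ι 𝔞` modulo `π R̂` (for `𝔞 ⊆ R`). -/
theorem exists_eq_add_pi_mul (S : Setting φ ι π) (𝔞 : Submodule R F) (h𝔞 : 𝔞 ≤ 1) {y : Fh}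
    (hy : y ∈ push Rh ι 𝔞) :
    ∃ c ∈ 𝔞, ∃ s : Rh, y = ι c + algebraMap Rh Fh (φ π * s) := by
  unfold push at hy
  induction hy using Submodule.span_induction with
  | mem z hz =>
    obtain ⟨x, hx, rfl⟩ := hz
    exact ⟨x, hx, 0, by rw [mul_zero, map_zero, add_zero]⟩
  | zero => exact ⟨0, 𝔞.zero_mem, 0, by rw [mul_zero, map_zero, map_zero, add_zero]⟩
  | add z w _ _ hz hw =>
    obtain ⟨c, hc, s, rfl⟩ := hz
    obtain ⟨c', hc', s', rfl⟩ := hw
    refine ⟨c + c', 𝔞.add_mem hc hc', s + s', ?_⟩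
    rw [map_add, mul_add, map_add]
    ring
  | smul a z _ hz =>
    obtain ⟨c, hc, s, rfl⟩ := hz
    obtain ⟨c₀, rfl⟩ := Submodule.mem_one.mp (h𝔞 hc)
    obtain ⟨r, t, hrt⟩ := S.approx 1 a
    refine ⟨r • algebraMap R F c₀, 𝔞.smul_mem r hc, t * φ c₀ + a * s, ?_⟩
    rw [Algebra.smul_def, Algebra.smul_def r, map_mul ι, ← S.compat, ← S.compat, hrt, pow_one]
    simp only [map_add, map_mul]
    ring

/-- **The trick.** -/
theorem one_mem_of_push (S : Setting φ ι π) (𝔞 : Submodule R F) (h𝔞 : 𝔞 ≤ 1)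
    (h1 : (1 : Fh) ∈ push Rh ι 𝔞) (hπ : ∃ n : ℕ, algebraMap R F π ^ n ∈ 𝔞) : (1 : F) ∈ 𝔞 := by
  obtain ⟨c, hc, s, hcs⟩ := exists_eq_add_pi_mul S 𝔞 h𝔞 h1
  obtain ⟨c₀, hc₀⟩ := Submodule.mem_one.mp (h𝔞 hc)
  have hπ0 := S.pi_ne
  have hιπ0 : ι (algebraMap R F π) ≠ 0 := (map_ne_zero ι).mpr hπ0
  -- `x = (1 - c) / π` lies in `R`
  set x : F := (algebraMap R F π)⁻¹ * (1 - c) with hx
  have hx1 : algebraMap R F π ^ 1 * x ∈ Set.range (algebraMap R F) := by
    refine ⟨1 - c₀, ?_⟩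
    rw [pow_one, hx, ← mul_assoc, mul_inv_cancel₀ hπ0, one_mul, map_sub, map_one, hc₀]
  have hx2 : ι x ∈ Set.range (algebraMap Rh Fh) := by
    refine ⟨s, ?_⟩
    have h2 : ι (algebraMap R F π) * ι x = ι (algebraMap R F π) * algebraMap Rh Fh s := by
      have e1 : algebraMap R F π * x = 1 - c := by
        rw [hx, ← mul_assoc, mul_inv_cancel₀ hπ0, one_mul]
      rw [← map_mul, e1, map_sub, map_one, ← S.compat, ← map_mul]
      linear_combination hcs
    exact (mul_left_cancel₀ hιπ0 h2).symm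
  obtain ⟨s₀, hs₀⟩ := S.sat x 1 hx1 hx2
  -- `c = 1 - π s₀`
  have hc' : c = algebraMap R F (1 - π * s₀) := by
    have : algebraMap R F π * x = 1 - c := by
      rw [hx, ← mul_assoc, mul_inv_cancel₀ hπ0, one_mul]
    rw [map_sub, map_one, map_mul, hs₀, this]
    ring
  obtain ⟨n, hn⟩ := hπ
  -- `1 = (π s₀)^n + (∑ (π s₀)^i) (1 - π s₀)`
  have hgeom : (1 : R) = (π * s₀) ^ n + (∑ i ∈ Finset.range n, (π * s₀) ^ i) * (1 - π * s₀) := by
    have := geom_sum_mul (π * s₀) n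
    linear_combination this
  have : (1 : F) = s₀ ^ n • algebraMap R F π ^ n +
      (∑ i ∈ Finset.range n, (π * s₀) ^ i) • c := by
    rw [hc', Algebra.smul_def, Algebra.smul_def, ← map_pow, ← map_mul, ← map_mul, ← map_add,
      ← map_one (algebraMap R F)]
    congr 1
    linear_combination hgeom
  rw [this]
  exact 𝔞.add_mem (𝔞.smul_mem _ hn) (𝔞.smul_mem _ hc)

/-! ### clearing denominators -/

/-- `z ∈ I_K` has `πⁿ z ∈ pull I_K Î` for some `n`. -/
theorem exists_pow_mul_mem_pull (S : Setting φ ι π) (IK : Submodule R F) (Ih : Submodule Rh Fh)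
    (hA : ∀ x ∈ IK, ∃ n : ℕ, ι (algebraMap R F π ^ n * x) ∈ Ih) :
    ∀ z ∈ IK, ∃ n : ℕ, algebraMap R F π ^ n * z ∈ pull S IK Ih := by
  intro z hz
  obtain ⟨n, hn⟩ := hA z hz
  refine ⟨n, ?_, hn⟩
  rw [← map_pow, ← Algebra.smul_def]
  exact IK.smul_mem _ hz

theorem pow_mul_mem (A : Submodule R F) {z : F} (k : ℕ) (hz : z ∈ A) :
    algebraMap R F π ^ k * z ∈ A := by
  rw [← map_pow, ← Algebra.smul_def]
  exact A.smul_mem _ hz

/-- clearing denominators in a product. -/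
theorem exists_pow_mul_mem_mul {A B AK BK : Submodule R F}
    (hA : ∀ z ∈ AK, ∃ n : ℕ, algebraMap R F π ^ n * z ∈ A)
    (hB : ∀ z ∈ BK, ∃ n : ℕ, algebraMap R F π ^ n * z ∈ B) :
    ∀ z ∈ AK * BK, ∃ n : ℕ, algebraMap R F π ^ n * z ∈ A * B := by
  intro z hz
  induction hz using Submodule.mul_induction_on' with
  | mem_mul_mem h hh g hg =>
    obtain ⟨n, hn⟩ := hA h hh
    obtain ⟨m, hm⟩ := hB g hg
    refine ⟨n + m, ?_⟩
    have : algebraMap R F π ^ (n + m) * (h * g) =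
        (algebraMap R F π ^ n * h) * (algebraMap R F π ^ m * g) := by ring
    rw [this]
    exact Submodule.mul_mem_mul hn hm
  | add x _ y _ hx hy =>
    obtain ⟨n, hn⟩ := hx
    obtain ⟨m, hm⟩ := hy
    refine ⟨n + m, ?_⟩
    have : algebraMap R F π ^ (n + m) * (x + y) =
        algebraMap R F π ^ m * (algebraMap R F π ^ n * x) +
          algebraMap R F π ^ n * (algebraMap R F π ^ m * y) := by ring
    rw [this]
    exact Submodule.add_mem _ (pow_mul_mem _ m hn) (pow_mul_mem _ n hm)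

/-- clearing denominators in a power. -/
theorem exists_pow_mul_mem_pow {A AK : Submodule R F}
    (hA : ∀ z ∈ AK, ∃ n : ℕ, algebraMap R F π ^ n * z ∈ A) (m : ℕ) :
    ∀ z ∈ AK ^ m, ∃ n : ℕ, algebraMap R F π ^ n * z ∈ A ^ m := by
  induction m with
  | zero =>
    intro z hz
    refine ⟨0, ?_⟩
    have e : algebraMap R F π ^ 0 * z = z := by rw [pow_zero, one_mul]
    rw [e]
    rw [pow_zero] at hz ⊢
    exact hz
  | succ m ih =>
    intro z hz
    rw [pow_succ] at hz ⊢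
    exact exists_pow_mul_mem_mul ih hA z hz

/-! ### (L2): `I J = R` -/

/-- **(L2)** `pull I_K Î * pull J_K Ĵ = 1`. -/
theorem pull_mul_pull (S : Setting φ ι π) (IK JK : Submodule R F) (Ih Jh : Submodule Rh Fh)
    (hIA : ∀ x ∈ IK, ∃ n : ℕ, ι (algebraMap R F π ^ n * x) ∈ Ih) (hIB : Ih ≤ push Rh ι IK)
    (hJA : ∀ x ∈ JK, ∃ n : ℕ, ι (algebraMap R F π ^ n * x) ∈ Jh) (hJB : Jh ≤ push Rh ι JK)
    (hK1 : (1 : F) ∈ IK * JK)
    (hK2 : ∀ x ∈ IK * JK, ∃ n : ℕ, algebraMap R F π ^ n * x ∈ Set.range (algebraMap R F))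
    (hh : Ih * Jh = 1) : pull S IK Ih * pull S JK Jh = 1 := by
  have hpush : push Rh ι (pull S IK Ih * pull S JK Jh) = 1 := by
    rw [push_mul, push_pull S IK Ih hIA hIB, push_pull S JK Jh hJA hJB, hh]
  have hle : pull S IK Ih * pull S JK Jh ≤ 1 := by
    intro x hx
    obtain ⟨n, hn⟩ := hK2 x (mul_le_mul' (pull_le S IK Ih) (pull_le S JK Jh) hx)
    have hιx : ι x ∈ Set.range (algebraMap Rh Fh) := by
      have := map_mem_push (Rh := Rh) (ι := ι) hx
      rw [hpush] at this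
      exact Submodule.mem_one.mp this
    exact Submodule.mem_one.mpr (S.sat x n hn hιx)
  refine le_antisymm hle (Submodule.one_le.mpr ?_)
  refine one_mem_of_push S _ hle ?_ ?_
  · rw [hpush]
    exact Submodule.mem_one.mpr ⟨1, map_one _⟩
  · obtain ⟨n, hn⟩ := exists_pow_mul_mem_mul (exists_pow_mul_mem_pull S IK Ih hIA)
      (exists_pow_mul_mem_pull S JK Jh hJA) 1 hK1
    exact ⟨n, by rwa [mul_one] at hn⟩

/-! ### (L3): `I ^ p = f R` -/

/-- **(L3)** `(pull I_K Î) ^ p = f R` if `Î ^ p = f R̂` and `I_K ^ p = f R[1/π]`. -/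
theorem pull_pow_eq_span (S : Setting φ ι π) (IK : Submodule R F) (Ih : Submodule Rh Fh)
    (hIA : ∀ x ∈ IK, ∃ n : ℕ, ι (algebraMap R F π ^ n * x) ∈ Ih) (hIB : Ih ≤ push Rh ι IK)
    (p : ℕ) {f : F} (hf : f ≠ 0) (hKf : f ∈ IK ^ p)
    (hK2 : ∀ x ∈ IK ^ p, ∃ (n : ℕ) (r : R), algebraMap R F π ^ n * x = f * algebraMap R F r)
    (hh : Ih ^ p = Submodule.span Rh {ι f}) :
    pull S IK Ih ^ p = Submodule.span R {f} := by
  have hιf : ι f ≠ 0 := (map_ne_zero ι).mpr hf
  have hpush : push Rh ι (pull S IK Ih ^ p) = Submodule.span Rh {ι f} := by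
    rw [push_pow S, push_pull S IK Ih hIA hIB, hh]
  -- Part A
  have hA : ∀ x ∈ pull S IK Ih ^ p, ∃ s : R, x = f * algebraMap R F s := by
    intro x hx
    obtain ⟨n, r, hnr⟩ := hK2 x (pow_le_pow_left' (pull_le S IK Ih) p hx)
    have hιx := map_mem_push (Rh := Rh) (ι := ι) hx
    rw [hpush] at hιx
    obtain ⟨a, ha⟩ := Submodule.mem_span_singleton.mp hιx
    have h1 : algebraMap R F π ^ n * (f⁻¹ * x) ∈ Set.range (algebraMap R F) := by
      refine ⟨r, ?_⟩
      rw [mul_left_comm, hnr, ← mul_assoc, inv_mul_cancel₀ hf, one_mul]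
    have h2 : ι (f⁻¹ * x) ∈ Set.range (algebraMap Rh Fh) := by
      refine ⟨a, ?_⟩
      rw [map_mul, map_inv₀, ← ha, Algebra.smul_def, mul_left_comm, inv_mul_cancel₀ hιf, mul_one]
    obtain ⟨s, hs⟩ := S.sat _ n h1 h2
    exact ⟨s, by rw [hs, ← mul_assoc, mul_inv_cancel₀ hf, one_mul]⟩
  apply le_antisymm
  · intro x hx
    obtain ⟨s, rfl⟩ := hA x hx
    rw [mul_comm, ← Algebra.smul_def]
    exact Submodule.smul_mem _ s (Submodule.mem_span_singleton_self f)
  · rw [Submodule.span_le, Set.singleton_subset_iff]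
    -- the ideal `𝔞 = f⁻¹ I^p`
    set 𝔞 : Submodule R F := Submodule.comap (LinearMap.mulLeft R f) (pull S IK Ih ^ p) with h𝔞def
    have hmem : ∀ x : F, x ∈ 𝔞 ↔ f * x ∈ pull S IK Ih ^ p := fun x => Iff.rfl
    have h𝔞 : 𝔞 ≤ 1 := by
      intro x hx
      obtain ⟨s, hs⟩ := hA _ ((hmem x).mp hx)
      exact Submodule.mem_one.mpr ⟨s, (mul_left_cancel₀ hf hs).symm⟩
    have h1 : (1 : Fh) ∈ push Rh ι 𝔞 := by
      have hstep : ∀ y ∈ push Rh ι (pull S IK Ih ^ p), (ι f)⁻¹ * y ∈ push Rh ι 𝔞 := by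
        intro y hy
        unfold push at hy
        induction hy using Submodule.span_induction with
        | mem z hz =>
          obtain ⟨x, hx, rfl⟩ := hz
          rw [← map_inv₀, ← map_mul]
          refine map_mem_push ((hmem _).mpr ?_)
          rwa [← mul_assoc, mul_inv_cancel₀ hf, one_mul]
        | zero => rw [mul_zero]; exact Submodule.zero_mem _
        | add y z _ _ hy hz => rw [mul_add]; exact Submodule.add_mem _ hy hz
        | smul a y _ hy => rw [mul_smul_comm]; exact Submodule.smul_mem _ a hy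
      have := hstep (ι f) (by rw [hpush]; exact Submodule.mem_span_singleton_self _)
      rwa [inv_mul_cancel₀ hιf] at this
    have hπ : ∃ n : ℕ, algebraMap R F π ^ n ∈ 𝔞 := by
      obtain ⟨n, hn⟩ := exists_pow_mul_mem_pow (exists_pow_mul_mem_pull S IK Ih hIA) p f hKf
      exact ⟨n, (hmem _).mpr (by rwa [mul_comm])⟩
    have := (hmem 1).mp (one_mem_of_push S 𝔞 h𝔞 h1 hπ)
    rwa [mul_one] at this

/-- **AD-frames, packaged**: from the global frame pair `(I_K, J_K)` on the generic chart and the local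
frame pair `(Î, Ĵ)` on the completed chart, the frame pair on the algebraic chart. -/
theorem exists_frames (S : Setting φ ι π) (IK JK : Submodule R F) (Ih Jh : Submodule Rh Fh)
    (hIA : ∀ x ∈ IK, ∃ n : ℕ, ι (algebraMap R F π ^ n * x) ∈ Ih) (hIB : Ih ≤ push Rh ι IK)
    (hJA : ∀ x ∈ JK, ∃ n : ℕ, ι (algebraMap R F π ^ n * x) ∈ Jh) (hJB : Jh ≤ push Rh ι JK)
    (hK1 : (1 : F) ∈ IK * JK)
    (hK2 : ∀ x ∈ IK * JK, ∃ n : ℕ, algebraMap R F π ^ n * x ∈ Set.range (algebraMap R F))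
    (hh : Ih * Jh = 1)
    (p : ℕ) {f : F} (hf : f ≠ 0) (hKf : f ∈ IK ^ p)
    (hKp : ∀ x ∈ IK ^ p, ∃ (n : ℕ) (r : R), algebraMap R F π ^ n * x = f * algebraMap R F r)
    (hhp : Ih ^ p = Submodule.span Rh {ι f}) :
    ∃ I J : Submodule R F, I * J = 1 ∧ I ^ p = Submodule.span R {f} ∧ I ≤ IK ∧ J ≤ JK ∧
      push Rh ι I = Ih ∧ push Rh ι J = Jh :=
  ⟨pull S IK Ih, pull S JK Jh, pull_mul_pull S IK JK Ih Jh hIA hIB hJA hJB hK1 hK2 hh,
    pull_pow_eq_span S IK Ih hIA hIB p hf hKf hKp hhp, pull_le S IK Ih, pull_le S JK Jh,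
    push_pull S IK Ih hIA hIB, push_pull S JK Jh hJA hJB⟩

end Ops

end Fermat.Agent.T1B.AD21.Frames
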