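/-
T1B / cell AD (ALG-DESCENT), tensor half (T1)+(T2) (helper21).  Mathlib only (+ `AD21/Frames`).

For `W`-algebras `O`, `Ô`, `B`, a `W`-algebra map `ψ : O → Ô`, `π : O`, and
`φ := ψ ⊗ id : O ⊗[W] B → Ô ⊗[W] B`:
* `approx_tensor` (T1, no flatness): if `Ô = ψ O + (ψ π)ⁿ Ô` for all `n`, then
  `Ô ⊗ B = φ (O ⊗ B) + (φ (π ⊗ 1))ⁿ (Ô ⊗ B)`;
* `sat_tensor` (T2, `B` flat over `W`): if `ψ r ∈ ((ψ π)ⁿ)` implies `r ∈ (πⁿ)`, then
  `φ r ∈ ((φ (π ⊗ 1))ⁿ)` implies `r ∈ ((π ⊗ 1)ⁿ)`;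
* `setting_tensor`: the resulting `Frames.Setting`.
-/
import Mathlib
import Fermat.Agent.T1B.AD21.Frames

set_option autoImplicit false

namespace Fermat.Agent.T1B.AD21.Tensor

open TensorProduct

variable {W O Oh B : Type*} [CommRing W] [CommRing O] [CommRing Oh] [CommRing B]
  [Algebra W O] [Algebra W Oh] [Algebra W B]

variable (B) in
/-- `φ := ψ ⊗ id : O ⊗[W] B → Ô ⊗[W] B`. -/
noncomputable def tmap (ψ : O →ₐ[W] Oh) : O ⊗[W] B →ₐ[W] Oh ⊗[W] B :=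
  Algebra.TensorProduct.map ψ (AlgHom.id W B)

@[simp] theorem tmap_tmul (ψ : O →ₐ[W] Oh) (x : O) (b : B) :
    tmap B ψ (x ⊗ₜ[W] b) = ψ x ⊗ₜ[W] b := by
  simp [tmap]

/-- (T1) approximation passes to `– ⊗[W] B` (no flatness needed). -/
theorem approx_tensor (ψ : O →ₐ[W] Oh) (π : O)
    (h : ∀ (n : ℕ) (x : Oh), ∃ (r : O) (s : Oh), x = ψ r + ψ π ^ n * s)
    (n : ℕ) (x : Oh ⊗[W] B) :
    ∃ (r : O ⊗[W] B) (s : Oh ⊗[W] B),
      x = tmap B ψ r + tmap B ψ (π ⊗ₜ[W] (1 : B)) ^ n * s := by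
  induction x using TensorProduct.induction_on with
  | zero => exact ⟨0, 0, by simp⟩
  | tmul y b =>
    obtain ⟨r, s, hrs⟩ := h n y
    refine ⟨r ⊗ₜ[W] b, s ⊗ₜ[W] b, ?_⟩
    rw [tmap_tmul, tmap_tmul, Algebra.TensorProduct.tmul_pow, one_pow,
      Algebra.TensorProduct.tmul_mul_tmul, one_mul, ← TensorProduct.add_tmul, ← hrs]
  | add x y hx hy =>
    obtain ⟨r₁, s₁, h₁⟩ := hx
    obtain ⟨r₂, s₂, h₂⟩ := hy
    refine ⟨r₁ + r₂, s₁ + s₂, ?_⟩
    rw [h₁, h₂, map_add]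
    ring

/-- (T2) saturation passes to `– ⊗[W] B` for `B` flat over `W`. -/
theorem sat_tensor [Module.Flat W B] (ψ : O →ₐ[W] Oh) (π : O)
    (h : ∀ (n : ℕ) (r : O), ψ r ∈ Ideal.span {ψ π ^ n} → r ∈ Ideal.span {π ^ n})
    (n : ℕ) (r : O ⊗[W] B)
    (hr : tmap B ψ r ∈ Ideal.span {tmap B ψ (π ⊗ₜ[W] (1 : B)) ^ n}) :
    r ∈ Ideal.span {(π ⊗ₜ[W] (1 : B)) ^ n} := by
  classical
  set I : Ideal O := Ideal.span {π ^ n} with hI
  set Ih : Ideal Oh := Ideal.span {ψ π ^ n} with hIh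
  have hle : I ≤ Ih.comap ψ := by
    rw [hI, Ideal.span_le]
    intro x hx
    rw [Set.mem_singleton_iff] at hx
    subst hx
    change ψ (π ^ n) ∈ Ih
    rw [map_pow]
    exact Ideal.mem_span_singleton_self _
  have hge : Ih.comap (ψ : O →+* Oh) ≤ I := fun x hx => h n x hx
  -- the quotient map `ψ̄ : O/πⁿ → Ô/(ψπ)ⁿ` and its injectivity
  let ψb : O ⧸ I →ₐ[W] Oh ⧸ Ih := Ideal.quotientMapₐ Ih ψ hle
  have hψb : Function.Injective ψb :=
    Ideal.quotientMap_injective' (f := (ψ : O →+* Oh)) (H := hle) hge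
  have hflat : Function.Injective (ψb.toLinearMap.rTensor B) :=
    Module.Flat.rTensor_preserves_injective_linearMap (M := B) ψb.toLinearMap hψb
  -- the square
  let q : O →ₐ[W] O ⧸ I := Ideal.Quotient.mkₐ W I
  let qh : Oh →ₐ[W] Oh ⧸ Ih := Ideal.Quotient.mkₐ W Ih
  have hsq : ∀ z : O ⊗[W] B,
      (ψb.toLinearMap.rTensor B) (Algebra.TensorProduct.map q (AlgHom.id W B) z) =
        Algebra.TensorProduct.map qh (AlgHom.id W B) (tmap B ψ z) := by
    intro z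
    induction z using TensorProduct.induction_on with
    | zero => simp
    | tmul x b =>
      simp only [tmap_tmul, Algebra.TensorProduct.map_tmul, LinearMap.rTensor_tmul,
        AlgHom.toLinearMap_apply, AlgHom.coe_id, id_eq]
      rfl
    | add x y hx hy => simp only [map_add, hx, hy]
  -- `φ r` dies in the quotient
  have h0 : Algebra.TensorProduct.map qh (AlgHom.id W B) (tmap B ψ r) = 0 := by
    obtain ⟨s, hs⟩ := Ideal.mem_span_singleton'.mp hr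
    have : qh (ψ π ^ n) = 0 := by
      change Ideal.Quotient.mk Ih (ψ π ^ n) = 0
      exact Ideal.Quotient.eq_zero_iff_mem.mpr (Ideal.mem_span_singleton_self _)
    rw [← hs, map_mul, map_pow, tmap_tmul, Algebra.TensorProduct.map_tmul,
      Algebra.TensorProduct.tmul_pow, ← map_pow, this, TensorProduct.zero_tmul, mul_zero]
  have h1 : Algebra.TensorProduct.map q (AlgHom.id W B) r = 0 := by
    apply hflat
    rw [hsq, h0, map_zero]
  -- kernel of `q ⊗ id`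
  have hker := Algebra.TensorProduct.rTensor_ker (R := W) (S := W) (C := B) q
    (Ideal.Quotient.mkₐ_surjective W I)
  have h2 : r ∈ RingHom.ker (Algebra.TensorProduct.map q (AlgHom.id W B)) := h1
  rw [hker] at h2
  have h3 : RingHom.ker q = I := Ideal.Quotient.mkₐ_ker W I
  rw [h3, hI, Ideal.map_span, Set.image_singleton] at h2
  have h4 : (Algebra.TensorProduct.includeLeft : O →ₐ[W] O ⊗[W] B) (π ^ n)
      = (π ⊗ₜ[W] (1 : B)) ^ n := by
    rw [map_pow]; rfl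
  rw [← h4]
  exact h2

/-- The `Frames.Setting` for `φ = ψ ⊗ id : O ⊗[W] B → Ô ⊗[W] B`, `π ⊗ 1`, from the two ring-level
facts about `ψ : O → Ô` (approximation and saturation), flatness of `B` over `W`, and injectivity
of `Ô ⊗[W] B → F̂`. -/
theorem setting_tensor [Module.Flat W B] (ψ : O →ₐ[W] Oh) (π : O)
    {F Fh : Type*} [Field F] [Field Fh] [Algebra (O ⊗[W] B) F] [Algebra (Oh ⊗[W] B) Fh]
    (ι : F →+* Fh)
    (compat : ∀ r : O ⊗[W] B,
      algebraMap (Oh ⊗[W] B) Fh (tmap B ψ r) = ι (algebraMap (O ⊗[W] B) F r))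
    (pi_ne : algebraMap (O ⊗[W] B) F (π ⊗ₜ[W] (1 : B)) ≠ 0)
    (hinj : Function.Injective (algebraMap (Oh ⊗[W] B) Fh))
    (happrox : ∀ (n : ℕ) (x : Oh), ∃ (r : O) (s : Oh), x = ψ r + ψ π ^ n * s)
    (hsat : ∀ (n : ℕ) (r : O), ψ r ∈ Ideal.span {ψ π ^ n} → r ∈ Ideal.span {π ^ n}) :
    Frames.Setting (tmap B ψ : O ⊗[W] B →+* Oh ⊗[W] B) ι (π ⊗ₜ[W] (1 : B)) where
  compat := compat
  pi_ne := pi_ne
  approx := fun n x => approx_tensor ψ π happrox n x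
  sat := Frames.sat_of_injective (φ := (tmap B ψ : O ⊗[W] B →+* Oh ⊗[W] B)) compat pi_ne hinj
    (fun n r hr => sat_tensor ψ π hsat n r hr)

end Fermat.Agent.T1B.AD21.Tensor
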