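/-
T1B / cell AD (helper21): adapter from the "span over `T = R̂[1/π]`" form of the generic-fibre
compatibility of frames (output of AD-3, helper74: `span T Î = span T (ι I_K)`) to the elementwise
hypotheses `hA`, `hB` of `AD21/Frames.lean`.  Mathlib only.

* `exists_pow_mul_mem_span` : `T = R̂[1/π]` (elementwise), `y ∈ span T s` ⟹ `πⁿ y ∈ span R̂ s` for some `n`;
* `hA_of_span_eq`, `hB_of_span_eq`, `le_push_of_span_eq`.
-/
import Mathlib
import Fermat.Agent.T1B.AD21.Frames

set_option autoImplicit false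

namespace Fermat.Agent.T1B.AD21.Adapter

open Fermat.Agent.T1B.AD21.Frames

variable {R Rh F Fh T : Type*} [CommRing R] [CommRing Rh] [Field F] [Field Fh] [CommRing T]
  [Algebra R F] [Algebra Rh Fh] [Algebra Rh T] [Algebra T Fh] [IsScalarTower Rh T Fh]

/-- If every element of `T` becomes integral after multiplication by a power of `ϖ` (`T = R̂[1/ϖ]`),
then every element of the `T`-span of `s` lies in the `R̂`-span after multiplication by a power of `ϖ`. -/
theorem exists_pow_mul_mem_span (ϖ : Rh)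
    (hT : ∀ t : T, ∃ (n : ℕ) (r : Rh), algebraMap Rh T ϖ ^ n * t = algebraMap Rh T r)
    (s : Set Fh) {y : Fh} (hy : y ∈ Submodule.span T s) :
    ∃ n : ℕ, algebraMap Rh Fh ϖ ^ n * y ∈ Submodule.span Rh s := by
  have hmul : ∀ (k : ℕ) (z : Fh), z ∈ Submodule.span Rh s →
      algebraMap Rh Fh ϖ ^ k * z ∈ Submodule.span Rh s := by
    intro k z hz
    rw [← map_pow, ← Algebra.smul_def]
    exact Submodule.smul_mem _ _ hz
  induction hy using Submodule.span_induction with
  | mem z hz => exact ⟨0, by rw [pow_zero, one_mul]; exact Submodule.subset_span hz⟩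
  | zero => exact ⟨0, by rw [mul_zero]; exact Submodule.zero_mem _⟩
  | add z w _ _ hz hw =>
    obtain ⟨n, hn⟩ := hz
    obtain ⟨m, hm⟩ := hw
    refine ⟨n + m, ?_⟩
    have : algebraMap Rh Fh ϖ ^ (n + m) * (z + w) =
        algebraMap Rh Fh ϖ ^ m * (algebraMap Rh Fh ϖ ^ n * z) +
          algebraMap Rh Fh ϖ ^ n * (algebraMap Rh Fh ϖ ^ m * w) := by ring
    rw [this]
    exact Submodule.add_mem _ (hmul m _ hn) (hmul n _ hm)
  | smul t z _ hz =>
    obtain ⟨m, hm⟩ := hz
    obtain ⟨n, r, hnr⟩ := hT t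
    refine ⟨n + m, ?_⟩
    have h1 : algebraMap Rh Fh ϖ ^ (n + m) * (t • z) =
        (algebraMap Rh T ϖ ^ n * t) • (algebraMap Rh Fh ϖ ^ m * z) := by
      rw [Algebra.smul_def, Algebra.smul_def, map_mul, map_pow,
        ← IsScalarTower.algebraMap_apply Rh T Fh]
      ring
    rw [h1, hnr, algebraMap_smul]
    exact Submodule.smul_mem _ r hm

variable {φ : R →+* Rh} {ι : F →+* Fh} {π : R}

/-- `hA` of `Frames` from the span form. -/
theorem hA_of_span_eq (S : Setting φ ι π) (IK : Submodule R F) (Ih : Submodule Rh Fh)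
    (hT : ∀ t : T, ∃ (n : ℕ) (r : Rh), algebraMap Rh T (φ π) ^ n * t = algebraMap Rh T r)
    (h : Submodule.span T (ι '' (IK : Set F)) ≤ Submodule.span T (Ih : Set Fh)) :
    ∀ x ∈ IK, ∃ n : ℕ, ι (algebraMap R F π ^ n * x) ∈ Ih := by
  intro x hx
  have hx' : ι x ∈ Submodule.span T (Ih : Set Fh) := h (Submodule.subset_span ⟨x, hx, rfl⟩)
  obtain ⟨n, hn⟩ := exists_pow_mul_mem_span (φ π) hT _ hx'
  refine ⟨n, ?_⟩
  rw [Submodule.span_eq] at hn
  rwa [map_mul, map_pow, ← S.compat]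

/-- the weak form of `hB` from the span form. -/
theorem hB_of_span_eq (S : Setting φ ι π) (IK : Submodule R F) (Ih : Submodule Rh Fh)
    (hT : ∀ t : T, ∃ (n : ℕ) (r : Rh), algebraMap Rh T (φ π) ^ n * t = algebraMap Rh T r)
    (h : Submodule.span T (Ih : Set Fh) ≤ Submodule.span T (ι '' (IK : Set F))) :
    ∀ g ∈ Ih, ∃ n : ℕ, ι (algebraMap R F π) ^ n * g ∈ push Rh ι IK := by
  intro g hg
  have hg' : g ∈ Submodule.span T (ι '' (IK : Set F)) := h (Submodule.subset_span hg)
  obtain ⟨n, hn⟩ := exists_pow_mul_mem_span (φ π) hT _ hg'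
  exact ⟨n, by rw [← S.compat]; exact hn⟩

/-- `hB` of `Frames` from the span form, for a `π⁻¹`-stable `I_K`. -/
theorem le_push_of_span_eq (S : Setting φ ι π) (IK : Submodule R F) (Ih : Submodule Rh Fh)
    (hst : ∀ x ∈ IK, (algebraMap R F π)⁻¹ * x ∈ IK)
    (hT : ∀ t : T, ∃ (n : ℕ) (r : Rh), algebraMap Rh T (φ π) ^ n * t = algebraMap Rh T r)
    (h : Submodule.span T (Ih : Set Fh) ≤ Submodule.span T (ι '' (IK : Set F))) :
    Ih ≤ push Rh ι IK :=
  le_push_of_stable S IK Ih hst (hB_of_span_eq S IK Ih hT h)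

end Fermat.Agent.T1B.AD21.Adapter
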