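/-
T1B / cell AD (ALG-DESCENT) (helper21): **the frame descent on one chart, in localisation form.**
Mathlib + `AD21/{Frames,Adapter}`.

Rings `R → R̂` (`φ`), fields `F → F̂` (`ι`), `π ∈ R` as in `Frames.Setting`; moreover
`S = R[1/π]` (an `R`-algebra mapping to `F`) and `T = R̂[1/π]` (an `R̂`-algebra mapping to `F̂`),
both in elementwise form.  Given invertible `S`-submodules `I_S J_S = 1` of `F` (the generic-fibre
frame and its inverse) and invertible `R̂`-submodules `Î Ĵ = 1` of `F̂` with
`T ∙ Î = T ∙ ι I_S`, `T ∙ Ĵ = T ∙ ι J_S`, the descended frames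
`I := {x ∈ I_S | ι x ∈ Î}`, `J := {x ∈ J_S | ι x ∈ Ĵ}` satisfy
`I * J = 1`, `S ∙ I = I_S`, `S ∙ J = J_S`, `R̂ ∙ ι I = Î`, `R̂ ∙ ι J = Ĵ`  (`exists_frames_chart`).
-/
import Mathlib
import Fermat.Agent.T1B.AD21.Frames
import Fermat.Agent.T1B.AD21.Adapter

set_option autoImplicit false

namespace Fermat.Agent.T1B.AD21.Chart

open Fermat.Agent.T1B.AD21.Frames Fermat.Agent.T1B.AD21.Adapter

variable {R Rh F Fh S T : Type*} [CommRing R] [CommRing Rh] [Field F] [Field Fh]
  [CommRing S] [CommRing T]
  [Algebra R F] [Algebra Rh Fh] [Algebra R S] [Algebra S F] [IsScalarTower R S F]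
  [Algebra Rh T] [Algebra T Fh] [IsScalarTower Rh T Fh]

/-- Restriction of scalars is lax multiplicative. -/
theorem restrictScalars_mul_le (I J : Submodule S F) :
    I.restrictScalars R * J.restrictScalars R ≤ (I * J).restrictScalars R := by
  rw [Submodule.mul_le]
  intro x hx y hy
  have hx' : x ∈ I := (Submodule.restrictScalars_mem R I x).mp hx
  have hy' : y ∈ J := (Submodule.restrictScalars_mem R J y).mp hy
  exact (Submodule.restrictScalars_mem R (I * J) (x * y)).mpr (Submodule.mul_mem_mul hx' hy')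

theorem one_le_restrictScalars_one :
    (1 : Submodule R F) ≤ (1 : Submodule S F).restrictScalars R := by
  intro x hx
  rw [Submodule.one_eq_range] at hx
  obtain ⟨r, rfl⟩ := hx
  rw [Submodule.restrictScalars_mem, Submodule.one_eq_range]
  exact ⟨algebraMap R S r, by
    rw [Algebra.linearMap_apply, Algebra.linearMap_apply]
    exact (IsScalarTower.algebraMap_apply R S F r).symm⟩

theorem restrictScalars_pow_le (I : Submodule S F) (n : ℕ) :
    (I.restrictScalars R) ^ n ≤ (I ^ n).restrictScalars R := by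
  induction n with
  | zero =>
    rw [pow_zero, pow_zero]
    exact one_le_restrictScalars_one
  | succ n ih =>
    rw [pow_succ, pow_succ]
    exact (mul_le_mul' ih le_rfl).trans (restrictScalars_mul_le _ _)

variable {φ : R →+* Rh} {ι : F →+* Fh} {π : R}

/-- `hK2` of `Frames` from `I_S * J_S = 1` and `S = R[1/π]`. -/
theorem hK2_of_mul_eq_one
    (hS : ∀ s : S, ∃ (n : ℕ) (r : R), algebraMap R S π ^ n * s = algebraMap R S r)
    {IS JS : Submodule S F} (h : IS * JS = 1) :
    ∀ x ∈ IS.restrictScalars R * JS.restrictScalars R,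
      ∃ n : ℕ, algebraMap R F π ^ n * x ∈ Set.range (algebraMap R F) := by
  intro x hx
  have hx' : x ∈ (1 : Submodule S F) := h ▸ restrictScalars_mul_le IS JS hx
  rw [Submodule.one_eq_range] at hx'
  obtain ⟨s, rfl⟩ := hx'
  obtain ⟨n, r, hnr⟩ := hS s
  refine ⟨n, r, ?_⟩
  rw [Algebra.linearMap_apply, IsScalarTower.algebraMap_apply R S F r, ← hnr, map_mul, map_pow,
    ← IsScalarTower.algebraMap_apply R S F]

/-- `hK1` of `Frames` from `I_S * J_S = 1`. -/
theorem hK1_of_mul_eq_one {IS JS : Submodule S F} (h : IS * JS = 1) :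
    (1 : F) ∈ IS.restrictScalars R * JS.restrictScalars R := by
  have h1 : (1 : F) ∈ IS * JS := by rw [h]; exact Submodule.one_le.mp le_rfl
  -- `IS * JS` is spanned (over `S`) by products; absorb the scalars into the first factor
  rw [Submodule.mul_eq_span_mul_set] at h1
  refine Submodule.span_induction (p := fun z _ => z ∈ IS.restrictScalars R * JS.restrictScalars R)
    ?_ ?_ ?_ ?_ h1
  · rintro _ ⟨a, ha, b, hb, rfl⟩
    exact Submodule.mul_mem_mul ha hb
  · exact Submodule.zero_mem _
  · intro a b _ _ ha hb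
    exact Submodule.add_mem _ ha hb
  · intro s z _ hz
    -- `s • z` with `z ∈ I * J` (over `R`): induct on `z`
    refine Submodule.mul_induction_on hz ?_ ?_
    · intro a ha b hb
      have : s • (a * b) = (s • a) * b := by rw [smul_mul_assoc]
      rw [this]
      exact Submodule.mul_mem_mul (IS.smul_mem s ha) hb
    · intro a b ha hb
      rw [smul_add]
      exact Submodule.add_mem _ ha hb

/-- The `S`-span of the descended frame is the generic-fibre frame. -/
theorem span_pull_eq (St : Setting φ ι π) (hπS : IsUnit (algebraMap R S π))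
    (IS : Submodule S F) (Ih : Submodule Rh Fh)
    (hIA : ∀ x ∈ IS, ∃ n : ℕ, ι (algebraMap R F π ^ n * x) ∈ Ih) :
    Submodule.span S ((pull St (IS.restrictScalars R) Ih : Submodule R F) : Set F) = IS := by
  apply le_antisymm
  · rw [Submodule.span_le]
    intro x hx
    exact hx.1
  · intro x hx
    obtain ⟨n, hn⟩ := hIA x hx
    have hmem : algebraMap R F π ^ n * x ∈ pull St (IS.restrictScalars R) Ih := by
      refine ⟨?_, hn⟩
      rw [← map_pow, ← Algebra.smul_def]
      exact (IS.restrictScalars R).smul_mem _ hx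
    obtain ⟨u, hu⟩ := hπS.pow n
    have hx' : x = (↑(u⁻¹) : S) • (algebraMap R F π ^ n * x) := by
      rw [Algebra.smul_def, ← mul_assoc, ← map_pow, IsScalarTower.algebraMap_apply R S F, ← map_mul,
        map_pow, ← hu, Units.inv_mul, map_one, one_mul]
    rw [hx']
    exact Submodule.smul_mem _ _ (Submodule.subset_span hmem)

/-- **The frame descent on one chart, localisation form.** -/
theorem exists_frames_chart (St : Setting φ ι π)
    (hS : ∀ s : S, ∃ (n : ℕ) (r : R), algebraMap R S π ^ n * s = algebraMap R S r)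
    (hπS : IsUnit (algebraMap R S π))
    (hT : ∀ t : T, ∃ (n : ℕ) (r : Rh), algebraMap Rh T (φ π) ^ n * t = algebraMap Rh T r)
    (IS JS : Submodule S F) (hK : IS * JS = 1) (Ih Jh : Submodule Rh Fh) (hh : Ih * Jh = 1)
    (hI : Submodule.span T (Ih : Set Fh) = Submodule.span T (ι '' (IS : Set F)))
    (hJ : Submodule.span T (Jh : Set Fh) = Submodule.span T (ι '' (JS : Set F))) :
    ∃ I J : Submodule R F, I * J = 1 ∧
      Submodule.span S (I : Set F) = IS ∧ Submodule.span S (J : Set F) = JS ∧
      push Rh ι I = Ih ∧ push Rh ι J = Jh ∧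
      I = pull St (IS.restrictScalars R) Ih ∧ J = pull St (JS.restrictScalars R) Jh := by
  have hst : ∀ (A : Submodule S F), ∀ x ∈ A.restrictScalars R,
      (algebraMap R F π)⁻¹ * x ∈ A.restrictScalars R := by
    intro A x hx
    obtain ⟨u, hu⟩ := hπS
    have : (algebraMap R F π)⁻¹ * x = (↑(u⁻¹) : S) • x := by
      rw [Algebra.smul_def, IsScalarTower.algebraMap_apply R S F, ← hu]
      congr 1
      rw [eq_comm, ← mul_eq_one_iff_eq_inv₀ (by
        intro h0
        have := congrArg (algebraMap S F) u.inv_mul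
        rw [map_mul, h0, mul_zero, map_one] at this
        exact zero_ne_one this), ← map_mul, Units.inv_mul, map_one]
    rw [this]
    exact A.smul_mem _ hx
  have hIA := hA_of_span_eq (T := T) St (IS.restrictScalars R) Ih hT hI.ge
  have hJA := hA_of_span_eq (T := T) St (JS.restrictScalars R) Jh hT hJ.ge
  have hIB := le_push_of_span_eq (T := T) St (IS.restrictScalars R) Ih (hst IS) hT hI.le
  have hJB := le_push_of_span_eq (T := T) St (JS.restrictScalars R) Jh (hst JS) hT hJ.le
  refine ⟨pull St (IS.restrictScalars R) Ih, pull St (JS.restrictScalars R) Jh,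
    pull_mul_pull St _ _ Ih Jh hIA hIB hJA hJB (hK1_of_mul_eq_one hK) (hK2_of_mul_eq_one hS hK) hh,
    span_pull_eq St hπS IS Ih hIA, span_pull_eq St hπS JS Jh hJA,
    push_pull St _ Ih hIA hIB, push_pull St _ Jh hJA hJB, rfl, rfl⟩

end Fermat.Agent.T1B.AD21.Chart
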