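/-
T1B / cell AD (helper21): transport of a framing along a field map `ι : F → F̂`.

For a framed two-chart module `(M, ε : M.N01 → F)` and a ring map `ι : F → F̂` which is linear over
the overlap ring (`F̂` an `R01`-algebra with `algebraMap R01 F̂ = ι ∘ algebraMap R01 F`), the framing
`ι ∘ ε` into `F̂` has frames `ι (frame_j M ε)`.
-/
import Mathlib
import Fermat.Agent.T1B.Hol31.Frame
import Fermat.Agent.T1B.AD21.Frames

set_option autoImplicit false
set_option linter.unusedSectionVars false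

universe u v w

namespace Fermat.Agent.T1B.AD21.FrameMap

open Fermat.Agent.Jac Fermat.Agent.T1B.Hol31.Frame

variable {A R0 R1 R01 : Type u} [CommRing A] [CommRing R0] [CommRing R1] [CommRing R01]
  [Algebra A R0] [Algebra A R1] [Algebra A R01] [Algebra R0 R01] [Algebra R1 R01]
  [IsScalarTower A R0 R01] [IsScalarTower A R1 R01]
  {F : Type v} [Field F] [Algebra R0 F] [Algebra R1 F] [Algebra R01 F]
  [IsScalarTower R0 R01 F] [IsScalarTower R1 R01 F]
  {Fh : Type w} [Field Fh] [Algebra R0 Fh] [Algebra R1 Fh] [Algebra R01 Fh]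
  [IsScalarTower R0 R01 Fh] [IsScalarTower R1 R01 Fh]

/-- A ring map `F → F̂` compatible with the `R01`-algebra structures, as an `R01`-linear map. -/
def linOfRingHom (ι : F →+* Fh)
    (hι : ∀ r : R01, ι (algebraMap R01 F r) = algebraMap R01 Fh r) : F →ₗ[R01] Fh where
  toFun := ι
  map_add' := map_add ι
  map_smul' := fun r x => by
    rw [Algebra.smul_def, map_mul, hι, RingHom.id_apply, Algebra.smul_def]

@[simp] theorem linOfRingHom_apply (ι : F →+* Fh)
    (hι : ∀ r : R01, ι (algebraMap R01 F r) = algebraMap R01 Fh r) (x : F) :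
    linOfRingHom ι hι x = ι x := rfl

/-- The transported framing `ι ∘ ε`. -/
def mapFraming {M : QC2 A R0 R1 R01} (ε : M.N01 →ₗ[R01] F) (ι : F →+* Fh)
    (hι : ∀ r : R01, ι (algebraMap R01 F r) = algebraMap R01 Fh r) : M.N01 →ₗ[R01] Fh :=
  (linOfRingHom ι hι).comp ε

@[simp] theorem mapFraming_apply {M : QC2 A R0 R1 R01} (ε : M.N01 →ₗ[R01] F) (ι : F →+* Fh)
    (hι : ∀ r : R01, ι (algebraMap R01 F r) = algebraMap R01 Fh r) (x : M.N01) :
    mapFraming ε ι hι x = ι (ε x) := rfl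

theorem mapFraming_ne_zero {M : QC2 A R0 R1 R01} {ε : M.N01 →ₗ[R01] F} (hε : ε ≠ 0)
    (ι : F →+* Fh) (hι : ∀ r : R01, ι (algebraMap R01 F r) = algebraMap R01 Fh r) :
    mapFraming ε ι hι ≠ 0 := by
  intro h0
  apply hε
  ext x
  have := LinearMap.congr_fun h0 x
  rw [mapFraming_apply, LinearMap.zero_apply] at this
  rw [LinearMap.zero_apply]
  exact (map_eq_zero ι).mp this

theorem mem_frame0_mapFraming {M : QC2 A R0 R1 R01} (ε : M.N01 →ₗ[R01] F) (ι : F →+* Fh)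
    (hι : ∀ r : R01, ι (algebraMap R01 F r) = algebraMap R01 Fh r) {z : Fh} :
    z ∈ frame0 M (mapFraming ε ι hι) ↔ ∃ x ∈ frame0 M ε, ι x = z := by
  rw [mem_frame0]
  constructor
  · rintro ⟨n, rfl⟩
    exact ⟨ε (M.r0 n), mem_frame0.mpr ⟨n, rfl⟩, rfl⟩
  · rintro ⟨x, hx, rfl⟩
    obtain ⟨n, rfl⟩ := mem_frame0.mp hx
    exact ⟨n, rfl⟩

theorem mem_frame1_mapFraming {M : QC2 A R0 R1 R01} (ε : M.N01 →ₗ[R01] F) (ι : F →+* Fh)
    (hι : ∀ r : R01, ι (algebraMap R01 F r) = algebraMap R01 Fh r) {z : Fh} :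
    z ∈ frame1 M (mapFraming ε ι hι) ↔ ∃ x ∈ frame1 M ε, ι x = z := by
  rw [mem_frame1]
  constructor
  · rintro ⟨n, rfl⟩
    exact ⟨ε (M.r1 n), mem_frame1.mpr ⟨n, rfl⟩, rfl⟩
  · rintro ⟨x, hx, rfl⟩
    obtain ⟨n, rfl⟩ := mem_frame1.mp hx
    exact ⟨n, rfl⟩

/-- The frame of the transported framing, as a set: `ι '' frame0`. -/
theorem coe_frame0_mapFraming {M : QC2 A R0 R1 R01} (ε : M.N01 →ₗ[R01] F) (ι : F →+* Fh)
    (hι : ∀ r : R01, ι (algebraMap R01 F r) = algebraMap R01 Fh r) :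
    (frame0 M (mapFraming ε ι hι) : Set Fh) = ι '' (frame0 M ε : Set F) := by
  ext z
  exact mem_frame0_mapFraming ε ι hι

theorem coe_frame1_mapFraming {M : QC2 A R0 R1 R01} (ε : M.N01 →ₗ[R01] F) (ι : F →+* Fh)
    (hι : ∀ r : R01, ι (algebraMap R01 F r) = algebraMap R01 Fh r) :
    (frame1 M (mapFraming ε ι hι) : Set Fh) = ι '' (frame1 M ε : Set F) := by
  ext z
  exact mem_frame1_mapFraming ε ι hι

/-- Hence the `R̂_0`-span of the transported frame is `Frames.push`. -/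
theorem span_frame0_mapFraming {Rh0 : Type*} [CommRing Rh0] [Algebra Rh0 Fh]
    {M : QC2 A R0 R1 R01} (ε : M.N01 →ₗ[R01] F) (ι : F →+* Fh)
    (hι : ∀ r : R01, ι (algebraMap R01 F r) = algebraMap R01 Fh r) :
    Submodule.span Rh0 (frame0 M (mapFraming ε ι hι) : Set Fh) =
      Frames.push Rh0 ι (frame0 M ε) := by
  rw [coe_frame0_mapFraming]
  rfl

theorem span_frame1_mapFraming {Rh1 : Type*} [CommRing Rh1] [Algebra Rh1 Fh]
    {M : QC2 A R0 R1 R01} (ε : M.N01 →ₗ[R01] F) (ι : F →+* Fh)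
    (hι : ∀ r : R01, ι (algebraMap R01 F r) = algebraMap R01 Fh r) :
    Submodule.span Rh1 (frame1 M (mapFraming ε ι hι) : Set Fh) =
      Frames.push Rh1 ι (frame1 M ε) := by
  rw [coe_frame1_mapFraming]
  rfl

end Fermat.Agent.T1B.AD21.FrameMap
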