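/-
T1B / cell AD (ALG-DESCENT) (helper21): **FRAMES DETERMINE THE LINE**.

* `injective_of_invertible` : a nonzero linear map from an invertible `R`-module to a field
  `F ⊇ R` is injective.
* `framing_injective`, `framing_r0_injective`, `framing_r1_injective` : a nonzero framing of a
  two-chart line is injective, and so are its restrictions to the chart modules.
* **`isoOfFramesEq`** : two framed lines `(M, ε)`, `(M', ε')` with the same frames in `F`
  (`frame_j M ε = frame_j M' ε'`, `j = 0, 1`) are isomorphic; `mk_eq_mk_of_frames_eq`.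
* `pow_eq_one_of_frames_pow` : if `(frame_j M ε) ^ p = R_j ∙ f` for ONE `f` (both charts), then
  `(LinePic.mk c M hM) ^ p = 1`.
-/
import Mathlib
import Fermat.Agent.T1B.Hol31.Frame

set_option autoImplicit false
set_option linter.unusedSectionVars false

universe u v

open TensorProduct

namespace Fermat.Agent.T1B.AD21.FramesDetermine

open Fermat.Agent.Jac Fermat.Agent.Jac.LineOps39 Fermat.Agent.Jac.JGroup85Pic
open Fermat.Agent.T1B.Hol31.Frame

/-! ### Nonzero maps from invertible modules to a field are injective -/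

section Inj

variable {R : Type*} [CommRing R] {N : Type*} [AddCommGroup N] [Module R N]
  {F : Type*} [Field F] [Algebra R F]

theorem injective_of_invertible [Module.Invertible R N]
    (hinj : Function.Injective (algebraMap R F)) (ε : N →ₗ[R] F) (hε : ε ≠ 0) :
    Function.Injective ε := by
  classical
  -- the base change to `F`
  let εF : F ⊗[R] N →ₗ[F] F := LinearMap.liftBaseChange F ε
  have hεF : ∀ x : N, εF ((1 : F) ⊗ₜ[R] x) = ε x := by
    intro x
    simp [εF]
  have h1 : Module.finrank F (F ⊗[R] N) = 1 := Module.Invertible.finrank_eq_one F (F ⊗[R] N)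
  obtain ⟨v, hv, hvs⟩ := finrank_eq_one_iff'.mp h1
  -- `εF v ≠ 0`
  have hεv : εF v ≠ 0 := by
    intro h0
    apply hε
    ext x
    obtain ⟨c, hc⟩ := hvs ((1 : F) ⊗ₜ[R] x)
    rw [LinearMap.zero_apply, ← hεF x, ← hc, map_smul, h0, smul_zero]
  have hεFinj : Function.Injective εF := by
    rw [← LinearMap.ker_eq_bot, LinearMap.ker_eq_bot']
    intro w hw
    obtain ⟨c, rfl⟩ := hvs w
    rw [map_smul, smul_eq_mul, mul_eq_zero] at hw
    rcases hw with hc | hw
    · rw [hc, zero_smul]
    · exact absurd hw hεv
  -- `N → F ⊗ N` is injective by flatness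
  have hj : Function.Injective (fun x : N => (1 : F) ⊗ₜ[R] x) := by
    have hflat : Function.Injective ((Algebra.linearMap R F).rTensor N) :=
      Module.Flat.rTensor_preserves_injective_linearMap (M := N) (Algebra.linearMap R F) hinj
    intro x y hxy
    have : (Algebra.linearMap R F).rTensor N ((1 : R) ⊗ₜ[R] x)
        = (Algebra.linearMap R F).rTensor N ((1 : R) ⊗ₜ[R] y) := by
      simpa using hxy
    have h2 := hflat this
    have h3 := congrArg (TensorProduct.lid R N) h2
    simpa using h3
  intro x y hxy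
  apply hj
  apply hεFinj
  rw [hεF, hεF, hxy]

end Inj

variable {A R0 R1 R01 : Type u} [CommRing A] [CommRing R0] [CommRing R1] [CommRing R01]
  [Algebra A R0] [Algebra A R1] [Algebra A R01] [Algebra R0 R01] [Algebra R1 R01]
  [IsScalarTower A R0 R01] [IsScalarTower A R1 R01]
  {F : Type v} [Field F] [Algebra R0 F] [Algebra R1 F] [Algebra R01 F]
  [IsScalarTower R0 R01 F] [IsScalarTower R1 R01 F]

/-! ### Injectivity of framings -/

theorem framing_comp_r0_ne_zero {M : QC2 A R0 R1 R01} {ε : M.N01 →ₗ[R01] F} (hε : ε ≠ 0) :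
    (ε.restrictScalars R0).comp M.r0 ≠ 0 := by
  intro h0
  apply hε
  apply M.bc0.algHom_ext
  intro x
  have := LinearMap.congr_fun h0 x
  simpa using this

theorem framing_comp_r1_ne_zero {M : QC2 A R0 R1 R01} {ε : M.N01 →ₗ[R01] F} (hε : ε ≠ 0) :
    (ε.restrictScalars R1).comp M.r1 ≠ 0 := by
  intro h0
  apply hε
  apply M.bc1.algHom_ext
  intro x
  have := LinearMap.congr_fun h0 x
  simpa using this

theorem framing_r0_injective {M : QC2 A R0 R1 R01} (hM : M.IsLine)
    (hinj0 : Function.Injective (algebraMap R0 F)) {ε : M.N01 →ₗ[R01] F} (hε : ε ≠ 0) :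
    Function.Injective ((ε.restrictScalars R0).comp M.r0) :=
  have := hM.inv0
  injective_of_invertible hinj0 _ (framing_comp_r0_ne_zero hε)

theorem framing_r1_injective {M : QC2 A R0 R1 R01} (hM : M.IsLine)
    (hinj1 : Function.Injective (algebraMap R1 F)) {ε : M.N01 →ₗ[R01] F} (hε : ε ≠ 0) :
    Function.Injective ((ε.restrictScalars R1).comp M.r1) :=
  have := hM.inv1
  injective_of_invertible hinj1 _ (framing_comp_r1_ne_zero hε)

/-- The overlap module of a line is invertible. -/
theorem invertible_N01 {M : QC2 A R0 R1 R01} (hM : M.IsLine) : Module.Invertible R01 M.N01 :=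
  have := hM.inv0
  Module.Invertible.congr M.bc0.equiv

theorem framing_injective {M : QC2 A R0 R1 R01} (hM : M.IsLine)
    (hinj01 : Function.Injective (algebraMap R01 F)) {ε : M.N01 →ₗ[R01] F} (hε : ε ≠ 0) :
    Function.Injective ε :=
  have := invertible_N01 hM
  injective_of_invertible hinj01 ε hε

/-- The range of a framing is the `R01`-span of the chart-`0` frame. -/
theorem range_framing_eq_span0 (M : QC2 A R0 R1 R01) (ε : M.N01 →ₗ[R01] F) :
    LinearMap.range ε = Submodule.span R01 (frame0 M ε : Set F) := by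
  apply le_antisymm
  · rintro _ ⟨x, rfl⟩
    refine M.bc0.inductionOn x (fun x => ε x ∈ Submodule.span R01 (frame0 M ε : Set F))
      ?_ ?_ ?_ ?_
    · rw [map_zero]; exact Submodule.zero_mem _
    · intro m
      exact Submodule.subset_span (mem_frame0.mpr ⟨m, rfl⟩)
    · intro s n hn
      rw [map_smul]
      exact Submodule.smul_mem _ s hn
    · intro n₁ n₂ h₁ h₂
      rw [map_add]
      exact Submodule.add_mem _ h₁ h₂
  · rw [Submodule.span_le]
    intro z hz
    obtain ⟨x, rfl⟩ := mem_frame0.mp hz
    exact ⟨M.r0 x, rfl⟩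

/-- The range of a framing is the `R01`-span of the chart-`1` frame. -/
theorem range_framing_eq_span1 (M : QC2 A R0 R1 R01) (ε : M.N01 →ₗ[R01] F) :
    LinearMap.range ε = Submodule.span R01 (frame1 M ε : Set F) := by
  apply le_antisymm
  · rintro _ ⟨x, rfl⟩
    refine M.bc1.inductionOn x (fun x => ε x ∈ Submodule.span R01 (frame1 M ε : Set F))
      ?_ ?_ ?_ ?_
    · rw [map_zero]; exact Submodule.zero_mem _
    · intro m
      exact Submodule.subset_span (mem_frame1.mpr ⟨m, rfl⟩)
    · intro s n hn
      rw [map_smul]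
      exact Submodule.smul_mem _ s hn
    · intro n₁ n₂ h₁ h₂
      rw [map_add]
      exact Submodule.add_mem _ h₁ h₂
  · rw [Submodule.span_le]
    intro z hz
    obtain ⟨x, rfl⟩ := mem_frame1.mp hz
    exact ⟨M.r1 x, rfl⟩

/-- The two frames of a framed module span the same `R01`-submodule of `F`. -/
theorem span_frame0_eq_span_frame1 (M : QC2 A R0 R1 R01) (ε : M.N01 →ₗ[R01] F) :
    Submodule.span R01 (frame0 M ε : Set F) = Submodule.span R01 (frame1 M ε : Set F) := by
  rw [← range_framing_eq_span0, range_framing_eq_span1]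

/-! ### Frames determine the line -/

/-- The inverse of `LinearEquiv.ofInjective`, evaluated. -/
theorem ofInjective_symm_val {R M : Type*} [CommRing R] [AddCommGroup M] [Module R M]
    {F : Type*} [AddCommGroup F] [Module R F] (f : M →ₗ[R] F) (hf : Function.Injective f)
    (z : LinearMap.range f) : f ((LinearEquiv.ofInjective f hf).symm z) = (z : F) := by
  have := LinearEquiv.apply_symm_apply (LinearEquiv.ofInjective f hf) z
  exact congrArg Subtype.val this

/-- Transport along two injective maps with the same range. -/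
noncomputable def equivOfRangeEq {R M M' : Type*} [CommRing R] [AddCommGroup M] [Module R M]
    [AddCommGroup M'] [Module R M'] {F : Type*} [AddCommGroup F] [Module R F]
    (f : M →ₗ[R] F) (hf : Function.Injective f) (f' : M' →ₗ[R] F) (hf' : Function.Injective f')
    (h : LinearMap.range f = LinearMap.range f') : M ≃ₗ[R] M' :=
  (LinearEquiv.ofInjective f hf) ≪≫ₗ (LinearEquiv.ofEq _ _ h) ≪≫ₗ
    (LinearEquiv.ofInjective f' hf').symm

theorem equivOfRangeEq_spec {R M M' : Type*} [CommRing R] [AddCommGroup M] [Module R M]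
    [AddCommGroup M'] [Module R M'] {F : Type*} [AddCommGroup F] [Module R F]
    (f : M →ₗ[R] F) (hf : Function.Injective f) (f' : M' →ₗ[R] F) (hf' : Function.Injective f')
    (h : LinearMap.range f = LinearMap.range f') (y : M) :
    f' (equivOfRangeEq f hf f' hf' h y) = f y := by
  unfold equivOfRangeEq
  rw [LinearEquiv.trans_apply, LinearEquiv.trans_apply, ofInjective_symm_val]
  rfl

section Iso

variable {M M' : QC2 A R0 R1 R01} (hM : M.IsLine) (hM' : M'.IsLine)
  (hinj0 : Function.Injective (algebraMap R0 F)) (hinj1 : Function.Injective (algebraMap R1 F))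
  (hinj01 : Function.Injective (algebraMap R01 F))
  {ε : M.N01 →ₗ[R01] F} {ε' : M'.N01 →ₗ[R01] F} (hε : ε ≠ 0) (hε' : ε' ≠ 0)
  (h0 : frame0 M ε = frame0 M' ε') (h1 : frame1 M ε = frame1 M' ε')

include h0 in
theorem range_eq_of_frames_eq : LinearMap.range ε = LinearMap.range ε' := by
  rw [range_framing_eq_span0, range_framing_eq_span0, h0]

/-- **Frames determine the line**: the isomorphism. -/
noncomputable def isoOfFramesEq : QC2.Iso M M' where
  e0 := equivOfRangeEq _ (framing_r0_injective hM hinj0 hε) _
    (framing_r0_injective hM' hinj0 hε') h0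
  e1 := equivOfRangeEq _ (framing_r1_injective hM hinj1 hε) _
    (framing_r1_injective hM' hinj1 hε') h1
  e01 := equivOfRangeEq _ (framing_injective hM hinj01 hε) _
    (framing_injective hM' hinj01 hε') (range_eq_of_frames_eq h0)
  comm0 := by
    intro x
    apply framing_injective hM' hinj01 hε'
    rw [equivOfRangeEq_spec]
    exact (equivOfRangeEq_spec _ (framing_r0_injective hM hinj0 hε) _
      (framing_r0_injective hM' hinj0 hε') h0 x).symm
  comm1 := by
    intro x
    apply framing_injective hM' hinj01 hε'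
    rw [equivOfRangeEq_spec]
    exact (equivOfRangeEq_spec _ (framing_r1_injective hM hinj1 hε) _
      (framing_r1_injective hM' hinj1 hε') h1 x).symm

end Iso

/-- **Frames determine the class.** -/
theorem mk_eq_mk_of_frames_eq (c : TwoChart A R0 R1 R01) {M M' : QC2 A R0 R1 R01}
    (hM : M.IsLine) (hM' : M'.IsLine)
    (hinj0 : Function.Injective (algebraMap R0 F)) (hinj1 : Function.Injective (algebraMap R1 F))
    (hinj01 : Function.Injective (algebraMap R01 F))
    {ε : M.N01 →ₗ[R01] F} {ε' : M'.N01 →ₗ[R01] F} (hε : ε ≠ 0) (hε' : ε' ≠ 0)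
    (h0 : frame0 M ε = frame0 M' ε') (h1 : frame1 M ε = frame1 M' ε') :
    LinePic.mk c M hM = LinePic.mk c M' hM' :=
  LinePic.mk_eq_mk hM hM' (isoOfFramesEq hM hM' hinj0 hinj1 hinj01 hε hε' h0 h1)

/-! ### `p`-th powers -/

theorem powFraming_ne_zero {M : QC2 A R0 R1 R01} {ε : M.N01 →ₗ[R01] F} (hε : ε ≠ 0) (n : ℕ) :
    powFraming ε n ≠ 0 := by
  obtain ⟨x, hx⟩ : ∃ x, ε x ≠ 0 := by
    by_contra hcon
    push Not at hcon
    exact hε (LinearMap.ext hcon)
  intro h0
  have h1 := powFraming_powElt ε x n
  rw [h0, LinearMap.zero_apply] at h1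
  exact pow_ne_zero n hx h1.symm

theorem unitFraming_ne_zero {f : F} (hf : f ≠ 0) :
    (unitFraming (A := A) (R0 := R0) (R1 := R1) (R01 := R01) f) ≠ 0 := by
  intro h0
  have h1 : (unitFraming (A := A) (R0 := R0) (R1 := R1) f : R01 →ₗ[R01] F) (1 : R01) = 0 := by
    have := LinearMap.congr_fun h0 (1 : R01)
    exact this
  rw [unitFraming_apply, one_smul] at h1
  exact hf h1

/-- **`p`-th power criterion.**  If the `p`-th powers of BOTH frames of a framed line are generated
by ONE element `f ≠ 0` of `F`, the class of the line is killed by `p`. -/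
theorem pow_eq_one_of_frames_pow (c : TwoChart A R0 R1 R01) {M : QC2 A R0 R1 R01} (hM : M.IsLine)
    (hinj0 : Function.Injective (algebraMap R0 F)) (hinj1 : Function.Injective (algebraMap R1 F))
    (hinj01 : Function.Injective (algebraMap R01 F))
    {ε : M.N01 →ₗ[R01] F} (hε : ε ≠ 0) (p : ℕ) {f : F} (hf : f ≠ 0)
    (h0 : frame0 M ε ^ p = Submodule.span R0 {f}) (h1 : frame1 M ε ^ p = Submodule.span R1 {f}) :
    (LinePic.mk c M hM) ^ p = 1 := by
  rw [mk_pow, LinePic.one_def]
  refine mk_eq_mk_of_frames_eq c (isLine_tpow hM p) isLine_unit hinj0 hinj1 hinj01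
    (powFraming_ne_zero hε p) (unitFraming_ne_zero hf) ?_ ?_
  · rw [frame0_tpow, frame0_unit, h0]
  · rw [frame1_tpow, frame1_unit, h1]

end Fermat.Agent.T1B.AD21.FramesDetermine
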