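/-
T1B / cell AD (ALG-DESCENT) (helper21): **uniqueness of the descended frame** and the resulting
**overlap compatibility** of the frames descended on the two charts.  Mathlib + `AD21/Frames`.

* `eq_pull_of_mul_eq_one` : under `Frames.Setting`, an invertible `R`-submodule `I ⊆ I_K` of `F`
  (`I * J = 1`, `J ⊆ J_K`) with `ι I ⊆ Î`, `ι J ⊆ Ĵ`, `Î Ĵ ⊆ R̂`, `I_K J_K ⊆ R[1/π]` is equal to
  `pull I_K Î = {x ∈ I_K | ι x ∈ Î}`.
* `span_eq_span_of_invertible` : invertible `I₀` over `R₀` and `I₁` over `R₁` (two charts mapping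
  to the overlap ring `R₀₁`) whose `R₀₁`-spans sit in the same `I_K`, `Î` (and the inverses in the
  same `J_K`, `Ĵ`) have the same `R₀₁`-span.
-/
import Mathlib
import Fermat.Agent.T1B.AD21.Frames

set_option autoImplicit false

namespace Fermat.Agent.T1B.AD21.Overlap

open Fermat.Agent.T1B.AD21.Frames
open scoped Pointwise

section Unique

variable {R Rh F Fh : Type*} [CommRing R] [CommRing Rh] [Field F] [Field Fh]
  [Algebra R F] [Algebra Rh Fh] {φ : R →+* Rh} {ι : F →+* Fh} {π : R}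

/-- `pull I_K Î * J ⊆ R` for any `J ⊆ J_K` with `ι J ⊆ Ĵ`. -/
theorem pull_mul_le_one (S : Setting φ ι π) (IK JK : Submodule R F) (Ih Jh : Submodule Rh Fh)
    (hK2 : ∀ x ∈ IK * JK, ∃ n : ℕ, algebraMap R F π ^ n * x ∈ Set.range (algebraMap R F))
    (hh : Ih * Jh ≤ 1) {J : Submodule R F} (hJK : J ≤ JK) (hJh : ∀ y ∈ J, ι y ∈ Jh) :
    pull S IK Ih * J ≤ 1 := by
  rw [Submodule.mul_le]
  intro x hx y hy
  obtain ⟨n, hn⟩ := hK2 (x * y) (Submodule.mul_mem_mul hx.1 (hJK hy))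
  have h1 : ι (x * y) ∈ (1 : Submodule Rh Fh) := by
    rw [map_mul]
    exact hh (Submodule.mul_mem_mul hx.2 (hJh y hy))
  rw [Submodule.one_eq_range] at h1
  obtain ⟨r, hr⟩ := h1
  have h2 : x * y ∈ Set.range (algebraMap R F) := S.sat (x * y) n hn ⟨r, by simpa using hr⟩
  obtain ⟨r', hr'⟩ := h2
  rw [Submodule.one_eq_range]
  exact ⟨r', by simpa using hr'⟩

/-- **Uniqueness of the descended frame.** -/
theorem eq_pull_of_mul_eq_one (S : Setting φ ι π) (IK JK : Submodule R F)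
    (Ih Jh : Submodule Rh Fh)
    (hK2 : ∀ x ∈ IK * JK, ∃ n : ℕ, algebraMap R F π ^ n * x ∈ Set.range (algebraMap R F))
    (hh : Ih * Jh ≤ 1) {I J : Submodule R F} (hIJ : I * J = 1) (hI : I ≤ IK) (hJ : J ≤ JK)
    (hIh : ∀ x ∈ I, ι x ∈ Ih) (hJh : ∀ y ∈ J, ι y ∈ Jh) : I = pull S IK Ih := by
  apply le_antisymm
  · intro x hx
    exact ⟨hI hx, hIh x hx⟩
  · calc pull S IK Ih = pull S IK Ih * 1 := (mul_one _).symm
      _ = pull S IK Ih * (J * I) := by rw [mul_comm J I, hIJ]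
      _ = (pull S IK Ih * J) * I := (mul_assoc _ _ _).symm
      _ ≤ 1 * I := mul_le_mul' (pull_mul_le_one S IK JK Ih Jh hK2 hh hJ hJh) le_rfl
      _ = I := one_mul _

end Unique

section Three

variable {R0 R1 R01 Rh01 F Fh : Type*} [CommRing R0] [CommRing R1] [CommRing R01] [CommRing Rh01]
  [Field F] [Field Fh]
  [Algebra R0 R01] [Algebra R1 R01] [Algebra R0 F] [Algebra R1 F] [Algebra R01 F]
  [IsScalarTower R0 R01 F] [IsScalarTower R1 R01 F] [Algebra Rh01 Fh]
  {φ : R01 →+* Rh01} {ι : F →+* Fh} {π : R01}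

/-- The `R₀₁`-span of a product of `R₀`-submodules. -/
theorem span_mul_span_tower {R S : Type*} [CommRing R] [CommRing S] [Algebra R S] [Algebra R F]
    [Algebra S F] [IsScalarTower R S F] (I J : Submodule R F) :
    Submodule.span S (I : Set F) * Submodule.span S (J : Set F)
      = Submodule.span S ((I * J : Submodule R F) : Set F) := by
  rw [Submodule.span_mul_span]
  apply le_antisymm
  · rw [Submodule.span_le]
    rintro _ ⟨x, hx, y, hy, rfl⟩
    exact Submodule.subset_span (Submodule.mul_mem_mul hx hy)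
  · rw [Submodule.span_le]
    intro z hz
    have : (I * J : Submodule R F) ≤
        (Submodule.span S ((I : Set F) * (J : Set F))).restrictScalars R := by
      rw [Submodule.mul_le]
      intro x hx y hy
      exact Submodule.subset_span ⟨x, hx, y, hy, rfl⟩
    exact this hz

/-- The `S`-span of `(1 : Submodule R F)` is `1`. -/
theorem span_one_tower {R S : Type*} [CommRing R] [CommRing S] [Algebra R S] [Algebra R F]
    [Algebra S F] [IsScalarTower R S F] :
    Submodule.span S (((1 : Submodule R F)) : Set F) = 1 := by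
  apply le_antisymm
  · rw [Submodule.span_le]
    intro z hz
    rw [SetLike.mem_coe, Submodule.one_eq_range] at hz
    obtain ⟨r, rfl⟩ := hz
    rw [SetLike.mem_coe, Submodule.one_eq_range]
    exact ⟨algebraMap R S r, by
      simp only [Algebra.linearMap_apply]
      exact (IsScalarTower.algebraMap_apply R S F r).symm⟩
  · rw [Submodule.one_le]
    exact Submodule.subset_span (Submodule.one_le.mp le_rfl)

/-- The `R₀₁`-span of an invertible `R`-submodule (`R → R₀₁`) sitting in `I_K`, `Î` is the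
descended frame `pull I_K Î` over `R₀₁`. -/
theorem span_eq_pull_of_invertible (S : Setting φ ι π) (IK JK : Submodule R01 F)
    (Ih Jh : Submodule Rh01 Fh)
    (hK2 : ∀ x ∈ IK * JK, ∃ n : ℕ, algebraMap R01 F π ^ n * x ∈ Set.range (algebraMap R01 F))
    (hh : Ih * Jh ≤ 1)
    {I J : Submodule R0 F} (hIJ : I * J = 1)
    (hI : ∀ x ∈ I, x ∈ IK ∧ ι x ∈ Ih) (hJ : ∀ x ∈ J, x ∈ JK ∧ ι x ∈ Jh) :
    Submodule.span R01 (I : Set F) = pull S IK Ih := by
  have hle : ∀ {A : Submodule R0 F} {AK : Submodule R01 F} {Ah : Submodule Rh01 Fh},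
      (∀ x ∈ A, x ∈ AK ∧ ι x ∈ Ah) → Submodule.span R01 (A : Set F) ≤ pull S AK Ah := by
    intro A AK Ah hA
    rw [Submodule.span_le]
    intro x hx
    exact hA x hx
  refine eq_pull_of_mul_eq_one S IK JK Ih Jh hK2 hh
    (J := Submodule.span R01 (J : Set F)) ?_ ?_ ?_ ?_ ?_
  · rw [span_mul_span_tower, hIJ, span_one_tower]
  · exact (hle hI).trans (pull_le S IK Ih)
  · exact (hle hJ).trans (pull_le S JK Jh)
  · intro x hx
    exact (hle hI hx).2
  · intro x hx
    exact (hle hJ hx).2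

/-- **Overlap compatibility of descended frames.** -/
theorem span_eq_span_of_invertible (S : Setting φ ι π) (IK JK : Submodule R01 F)
    (Ih Jh : Submodule Rh01 Fh)
    (hK2 : ∀ x ∈ IK * JK, ∃ n : ℕ, algebraMap R01 F π ^ n * x ∈ Set.range (algebraMap R01 F))
    (hh : Ih * Jh ≤ 1)
    {I0 J0 : Submodule R0 F} {I1 J1 : Submodule R1 F} (h0 : I0 * J0 = 1) (h1 : I1 * J1 = 1)
    (hI0 : ∀ x ∈ I0, x ∈ IK ∧ ι x ∈ Ih) (hJ0 : ∀ x ∈ J0, x ∈ JK ∧ ι x ∈ Jh)
    (hI1 : ∀ x ∈ I1, x ∈ IK ∧ ι x ∈ Ih) (hJ1 : ∀ x ∈ J1, x ∈ JK ∧ ι x ∈ Jh) :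
    Submodule.span R01 (I0 : Set F) = Submodule.span R01 (I1 : Set F) := by
  rw [span_eq_pull_of_invertible S IK JK Ih Jh hK2 hh h0 hI0 hJ0,
    span_eq_pull_of_invertible (R0 := R1) S IK JK Ih Jh hK2 hh h1 hI1 hJ1]

end Three

end Fermat.Agent.T1B.AD21.Overlap
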