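/-
T1B / cell AD (ALG-DESCENT) (helper21): **GLUE, frame level.**  Mathlib + `AD21/{Frames,Adapter,
Overlap,Chart}`.

Two charts `R_0, R_1 → R_01` (the algebraic DVR level `O_L ⊗ B_j`), their completions
`H_j` (`Ô ⊗ B_j`), generic fibres `S_j = R_j[1/π]` (`L ⊗ B_j`), `T_j = H_j[1/π]` (`E ⊗ B_j`), fields
`ι : F → F̂`.  Given a compatible invertible frame pair `(I_S0, I_S1)` over `S` in `F` and a compatible
invertible frame pair `(Î_0, Î_1)` over `H` in `F̂` with the same generic fibre over `T`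
(`T_j ∙ Î_j = T_j ∙ ι I_Sj`, same for the inverses), there is a compatible invertible frame pair
`(I_0, I_1)` over `R` in `F` with `S_j ∙ I_j = I_Sj` and `H_j ∙ ι I_j = Î_j`.
-/
import Mathlib
import Fermat.Agent.T1B.AD21.Frames
import Fermat.Agent.T1B.AD21.Adapter
import Fermat.Agent.T1B.AD21.Overlap
import Fermat.Agent.T1B.AD21.Chart

set_option autoImplicit false

namespace Fermat.Agent.T1B.AD21.GlueCore

open Fermat.Agent.T1B.AD21.Frames Fermat.Agent.T1B.AD21.Overlap Fermat.Agent.T1B.AD21.Chart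

/-- Uniqueness of inverses of submodules. -/
theorem inv_unique {R A : Type*} [CommSemiring R] [CommSemiring A] [Algebra R A]
    {I J J' : Submodule R A} (h : I * J = 1) (h' : I * J' = 1) : J = J' := by
  calc J = J * 1 := (mul_one J).symm
    _ = J * (I * J') := by rw [h']
    _ = (I * J) * J' := by rw [← mul_assoc, mul_comm J I]
    _ = J' := by rw [h, one_mul]

/-- `push Ĥ ι I = Î` gives `ι I ⊆ Î`. -/
theorem mem_of_push_eq {R H F Fh : Type*} [CommRing R] [CommRing H] [Field F] [Field Fh]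
    [Algebra R F] [Algebra H Fh] {ι : F →+* Fh} {I : Submodule R F} {Ih : Submodule H Fh}
    (h : push H ι I = Ih) (x : F) (hx : x ∈ I) : ι x ∈ (Ih : Set Fh) := by
  rw [← h]
  exact map_mem_push hx

variable {R0 R1 R01 H0 H1 H01 S0 S1 S01 T0 T1 F Fh : Type*}
  [CommRing R0] [CommRing R1] [CommRing R01] [CommRing H0] [CommRing H1] [CommRing H01]
  [CommRing S0] [CommRing S1] [CommRing S01] [CommRing T0] [CommRing T1] [Field F] [Field Fh]
  [Algebra R0 R01] [Algebra R1 R01] [Algebra R0 F] [Algebra R1 F] [Algebra R01 F]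
  [IsScalarTower R0 R01 F] [IsScalarTower R1 R01 F]
  [Algebra H0 H01] [Algebra H1 H01] [Algebra H0 Fh] [Algebra H1 Fh] [Algebra H01 Fh]
  [IsScalarTower H0 H01 Fh] [IsScalarTower H1 H01 Fh]
  [Algebra R0 S0] [Algebra R1 S1] [Algebra R01 S01]
  [Algebra S0 F] [Algebra S1 F] [Algebra S01 F]
  [IsScalarTower R0 S0 F] [IsScalarTower R1 S1 F] [IsScalarTower R01 S01 F]
  [Algebra S0 S01] [Algebra S1 S01] [IsScalarTower S0 S01 F] [IsScalarTower S1 S01 F]
  [Algebra H0 T0] [Algebra H1 T1] [Algebra T0 Fh] [Algebra T1 Fh]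
  [IsScalarTower H0 T0 Fh] [IsScalarTower H1 T1 Fh]
  {φ0 : R0 →+* H0} {φ1 : R1 →+* H1} {φ01 : R01 →+* H01} {ι : F →+* Fh}
  {π0 : R0} {π1 : R1} {π01 : R01}

/-- **GLUE, frame level.** -/
theorem exists_frame_pair (St0 : Setting φ0 ι π0) (St1 : Setting φ1 ι π1)
    (St01 : Setting φ01 ι π01)
    (hS0 : ∀ s : S0, ∃ (n : ℕ) (r : R0), algebraMap R0 S0 π0 ^ n * s = algebraMap R0 S0 r)
    (hS1 : ∀ s : S1, ∃ (n : ℕ) (r : R1), algebraMap R1 S1 π1 ^ n * s = algebraMap R1 S1 r)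
    (hS01 : ∀ s : S01, ∃ (n : ℕ) (r : R01),
      algebraMap R01 S01 π01 ^ n * s = algebraMap R01 S01 r)
    (hπS0 : IsUnit (algebraMap R0 S0 π0)) (hπS1 : IsUnit (algebraMap R1 S1 π1))
    (hT0 : ∀ t : T0, ∃ (n : ℕ) (r : H0), algebraMap H0 T0 (φ0 π0) ^ n * t = algebraMap H0 T0 r)
    (hT1 : ∀ t : T1, ∃ (n : ℕ) (r : H1), algebraMap H1 T1 (φ1 π1) ^ n * t = algebraMap H1 T1 r)
    (IS0 JS0 : Submodule S0 F) (IS1 JS1 : Submodule S1 F)
    (hK0 : IS0 * JS0 = 1) (hK1 : IS1 * JS1 = 1)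
    (hKov : Submodule.span S01 (IS0 : Set F) = Submodule.span S01 (IS1 : Set F))
    (Ih0 Jh0 : Submodule H0 Fh) (Ih1 Jh1 : Submodule H1 Fh)
    (hh0 : Ih0 * Jh0 = 1) (hh1 : Ih1 * Jh1 = 1)
    (hhov : Submodule.span H01 (Ih0 : Set Fh) = Submodule.span H01 (Ih1 : Set Fh))
    (hI0 : Submodule.span T0 (Ih0 : Set Fh) = Submodule.span T0 (ι '' (IS0 : Set F)))
    (hJ0 : Submodule.span T0 (Jh0 : Set Fh) = Submodule.span T0 (ι '' (JS0 : Set F)))
    (hI1 : Submodule.span T1 (Ih1 : Set Fh) = Submodule.span T1 (ι '' (IS1 : Set F)))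
    (hJ1 : Submodule.span T1 (Jh1 : Set Fh) = Submodule.span T1 (ι '' (JS1 : Set F))) :
    ∃ (I0 J0 : Submodule R0 F) (I1 J1 : Submodule R1 F), I0 * J0 = 1 ∧ I1 * J1 = 1 ∧
      Submodule.span S0 (I0 : Set F) = IS0 ∧ Submodule.span S1 (I1 : Set F) = IS1 ∧
      push H0 ι I0 = Ih0 ∧ push H1 ι I1 = Ih1 ∧
      Submodule.span R01 (I0 : Set F) = Submodule.span R01 (I1 : Set F) := by
  obtain ⟨I0, J0, hIJ0, hsI0, hsJ0, hpI0, hpJ0, hI0eq, hJ0eq⟩ :=
    exists_frames_chart (S := S0) (T := T0) St0 hS0 hπS0 hT0 IS0 JS0 hK0 Ih0 Jh0 hh0 hI0 hJ0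
  obtain ⟨I1, J1, hIJ1, hsI1, hsJ1, hpI1, hpJ1, hI1eq, hJ1eq⟩ :=
    exists_frames_chart (S := S1) (T := T1) St1 hS1 hπS1 hT1 IS1 JS1 hK1 Ih1 Jh1 hh1 hI1 hJ1
  refine ⟨I0, J0, I1, J1, hIJ0, hIJ1, hsI0, hsI1, hpI0, hpI1, ?_⟩
  -- overlap data
  have hmulS0 : Submodule.span S01 (IS0 : Set F) * Submodule.span S01 (JS0 : Set F) = 1 := by
    rw [span_mul_span_tower, hK0, span_one_tower]
  have hmulS1 : Submodule.span S01 (IS1 : Set F) * Submodule.span S01 (JS1 : Set F) = 1 := by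
    rw [span_mul_span_tower, hK1, span_one_tower]
  have hJKov : Submodule.span S01 (JS0 : Set F) = Submodule.span S01 (JS1 : Set F) :=
    inv_unique hmulS0 (hKov ▸ hmulS1)
  have hmulH0 : Submodule.span H01 (Ih0 : Set Fh) * Submodule.span H01 (Jh0 : Set Fh) = 1 := by
    rw [span_mul_span_tower, hh0, span_one_tower]
  have hmulH1 : Submodule.span H01 (Ih1 : Set Fh) * Submodule.span H01 (Jh1 : Set Fh) = 1 := by
    rw [span_mul_span_tower, hh1, span_one_tower]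
  have hJhov : Submodule.span H01 (Jh0 : Set Fh) = Submodule.span H01 (Jh1 : Set Fh) :=
    inv_unique hmulH0 (hhov ▸ hmulH1)
  refine span_eq_span_of_invertible St01
    ((Submodule.span S01 (IS0 : Set F)).restrictScalars R01)
    ((Submodule.span S01 (JS0 : Set F)).restrictScalars R01)
    (Submodule.span H01 (Ih0 : Set Fh)) (Submodule.span H01 (Jh0 : Set Fh))
    (hK2_of_mul_eq_one hS01 hmulS0) hmulH0.le hIJ0 hIJ1 ?_ ?_ ?_ ?_
  · intro x hx
    refine ⟨?_, Submodule.subset_span (mem_of_push_eq hpI0 x hx)⟩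
    have hx' : x ∈ IS0 := by rw [← hsI0]; exact Submodule.subset_span hx
    exact Submodule.subset_span hx'
  · intro x hx
    refine ⟨?_, Submodule.subset_span (mem_of_push_eq hpJ0 x hx)⟩
    have hx' : x ∈ JS0 := by rw [← hsJ0]; exact Submodule.subset_span hx
    exact Submodule.subset_span hx'
  · intro x hx
    refine ⟨?_, ?_⟩
    · have hx' : x ∈ IS1 := by rw [← hsI1]; exact Submodule.subset_span hx
      change x ∈ Submodule.span S01 (IS0 : Set F)
      rw [hKov]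
      exact Submodule.subset_span hx'
    · rw [hhov]
      exact Submodule.subset_span (mem_of_push_eq hpI1 x hx)
  · intro x hx
    refine ⟨?_, ?_⟩
    · have hx' : x ∈ JS1 := by rw [← hsJ1]; exact Submodule.subset_span hx
      change x ∈ Submodule.span S01 (JS0 : Set F)
      rw [hJKov]
      exact Submodule.subset_span hx'
    · rw [hJhov]
      exact Submodule.subset_span (mem_of_push_eq hpJ1 x hx)

end Fermat.Agent.T1B.AD21.GlueCore
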