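/-
T1B / cell AD (ALG-DESCENT) (helper21): **LINE-FROM-FRAMES**, the converse of `Hol31.Frame`.

For a two-chart ring `c : TwoChart A R0 R1 R01` whose rings map to a field `F`
(`R_j → R01 → F`), and invertible `R_j`-submodules `I_j ⊆ F` (`I_j * J_j = 1`) with the same
`R01`-span, `lineOfFrames` is the two-chart line with `N_j = I_j`, `N01 = R01 ∙ I_0`, restriction
maps the inclusions; its tautological framing `framing` has frames `I_0`, `I_1`.
-/
import Mathlib
import Fermat.Agent.T1B.Hol31.Frame
import Fermat.Agent.T1B.AD21.FramesDetermine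

set_option autoImplicit false
set_option linter.unusedSectionVars false
set_option linter.style.haveILetI false

universe u

open TensorProduct

namespace Fermat.Agent.T1B.AD21.LineOfFrames

open Fermat.Agent.Jac Fermat.Agent.Jac.LineOps39 Fermat.Agent.Jac.JGroup85Pic
open Fermat.Agent.T1B.Hol31.Frame

variable {A R0 R1 R01 : Type u} [CommRing A] [CommRing R0] [CommRing R1] [CommRing R01]
  [Algebra A R0] [Algebra A R1] [Algebra A R01] [Algebra R0 R01] [Algebra R1 R01]
  [IsScalarTower A R0 R01] [IsScalarTower A R1 R01]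
  {F : Type u} [Field F] [Algebra R0 F] [Algebra R1 F] [Algebra R01 F]
  [IsScalarTower R0 R01 F] [IsScalarTower R1 R01 F]

/-! ### The constant two-chart module `F` -/

variable (A R01 F) in
/-- The `A`-algebra structure on `F` through `R01` (local to this file's constructions). -/
@[reducible] def algAF : Algebra A F := ((algebraMap R01 F).comp (algebraMap A R01)).toAlgebra

theorem towerA0 : letI := algAF A R01 F; IsScalarTower A R0 F := by
  letI := algAF A R01 F
  refine IsScalarTower.of_algebraMap_eq (fun a => ?_)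
  change algebraMap R01 F (algebraMap A R01 a) = algebraMap R0 F (algebraMap A R0 a)
  rw [IsScalarTower.algebraMap_apply A R0 R01, ← IsScalarTower.algebraMap_apply R0 R01 F]

theorem towerA1 : letI := algAF A R01 F; IsScalarTower A R1 F := by
  letI := algAF A R01 F
  refine IsScalarTower.of_algebraMap_eq (fun a => ?_)
  change algebraMap R01 F (algebraMap A R01 a) = algebraMap R1 F (algebraMap A R1 a)
  rw [IsScalarTower.algebraMap_apply A R1 R01, ← IsScalarTower.algebraMap_apply R1 R01 F]

theorem towerA01 : letI := algAF A R01 F; IsScalarTower A R01 F := by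
  letI := algAF A R01 F
  exact IsScalarTower.of_algebraMap_eq (fun a => rfl)

variable (F) in
/-- The constant two-chart module with all three modules equal to `F`. -/
noncomputable def constQC (c : TwoChart A R0 R1 R01) : QC2 A R0 R1 R01 :=
  letI := algAF A R01 F
  haveI := towerA0 (A := A) (R0 := R0) (R01 := R01) (F := F)
  haveI := towerA1 (A := A) (R1 := R1) (R01 := R01) (F := F)
  haveI := towerA01 (A := A) (R01 := R01) (F := F)
  { N0 := F
    N1 := F
    N01 := F
    r0 := LinearMap.id
    r1 := LinearMap.id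
    bc0 := by
      haveI := c.away0
      exact (isLocalizedModule_iff_isBaseChange (Submonoid.powers c.t) R01 _).mp
        (isLocalizedModule_id (Submonoid.powers c.t) F R01)
    bc1 := by
      haveI := c.away1
      exact (isLocalizedModule_iff_isBaseChange (Submonoid.powers c.s) R01 _).mp
        (isLocalizedModule_id (Submonoid.powers c.s) F R01) }

/-! ### The line of a frame pair -/

section Line

/-- The frame pair as a sub-pair of the constant module. -/
noncomputable def subPair (c : TwoChart A R0 R1 R01) (I0 : Submodule R0 F) (I1 : Submodule R1 F)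
    (h01 : Submodule.span R01 (I0 : Set F) = Submodule.span R01 (I1 : Set F)) :
    SubPair (constQC F c) where
  S0 := I0
  S1 := I1
  compat := by
    change Submodule.span R01 ((LinearMap.id : F →ₗ[R0] F) '' (I0 : Set F)) =
      Submodule.span R01 ((LinearMap.id : F →ₗ[R1] F) '' (I1 : Set F))
    rw [LinearMap.id_coe, Set.image_id, LinearMap.id_coe, Set.image_id]
    exact h01

variable (c : TwoChart A R0 R1 R01) (I0 : Submodule R0 F) (I1 : Submodule R1 F)
  (h01 : Submodule.span R01 (I0 : Set F) = Submodule.span R01 (I1 : Set F))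

/-- **The two-chart module with prescribed frames** `I0`, `I1`. -/
noncomputable def lineOfFrames : QC2 A R0 R1 R01 := sub c (constQC F c) (subPair c I0 I1 h01)

/-- The tautological framing of `lineOfFrames`. -/
noncomputable def framing : (lineOfFrames c I0 I1 h01).N01 →ₗ[R01] F :=
  (subPair c I0 I1 h01).S01.subtype

theorem framing_r0 (x : (lineOfFrames c I0 I1 h01).N0) :
    framing c I0 I1 h01 ((lineOfFrames c I0 I1 h01).r0 x) = ((show ↥I0 from x) : F) := rfl

theorem framing_r1 (x : (lineOfFrames c I0 I1 h01).N1) :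
    framing c I0 I1 h01 ((lineOfFrames c I0 I1 h01).r1 x) = ((show ↥I1 from x) : F) := rfl

theorem frame0_lineOfFrames :
    frame0 (lineOfFrames c I0 I1 h01) (framing c I0 I1 h01) = I0 := by
  ext z
  rw [mem_frame0]
  constructor
  · rintro ⟨x, rfl⟩
    rw [framing_r0]
    exact (show ↥I0 from x).2
  · intro hz
    exact ⟨(show (lineOfFrames c I0 I1 h01).N0 from (⟨z, hz⟩ : ↥I0)), rfl⟩

theorem frame1_lineOfFrames :
    frame1 (lineOfFrames c I0 I1 h01) (framing c I0 I1 h01) = I1 := by
  ext z
  rw [mem_frame1]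
  constructor
  · rintro ⟨x, rfl⟩
    rw [framing_r1]
    exact (show ↥I1 from x).2
  · intro hz
    exact ⟨(show (lineOfFrames c I0 I1 h01).N1 from (⟨z, hz⟩ : ↥I1)), rfl⟩

theorem framing_injective : Function.Injective (framing c I0 I1 h01) :=
  Subtype.val_injective

theorem framing_ne_zero (hI0 : I0 ≠ ⊥) : framing c I0 I1 h01 ≠ 0 := by
  intro h0
  apply hI0
  rw [eq_bot_iff]
  intro z hz
  have h1 : framing c I0 I1 h01 ((lineOfFrames c I0 I1 h01).r0
      (show (lineOfFrames c I0 I1 h01).N0 from (⟨z, hz⟩ : ↥I0))) = 0 := by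
    rw [h0, LinearMap.zero_apply]
  rw [framing_r0] at h1
  exact h1

end Line

/-! ### Invertibility -/

/-- A submodule `I ⊆ F` with `I * J = 1` is an invertible module (`R → F` injective). -/
theorem invertible_of_mul_eq_one {R : Type*} [CommRing R] [Algebra R F]
    (hinj : Function.Injective (algebraMap R F)) {I J : Submodule R F} (h : I * J = 1) :
    Module.Invertible R I := by
  haveI : FaithfulSMul R F := (faithfulSMul_iff_algebraMap_injective R F).mpr hinj
  let u : (Submodule R F)ˣ := Units.mkOfMulEqOne I J h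
  exact (inferInstance : Module.Invertible R (u : Submodule R F))

theorem ne_bot_of_mul_eq_one {R : Type*} [CommRing R] [Algebra R F]
    {I J : Submodule R F} (h : I * J = 1) : I ≠ ⊥ := by
  intro hI
  rw [hI, Submodule.bot_mul] at h
  have h1 : (1 : F) ∈ (1 : Submodule R F) := Submodule.one_le.mp le_rfl
  rw [← h] at h1
  exact one_ne_zero ((Submodule.mem_bot R).mp h1)

theorem isLine_lineOfFrames (c : TwoChart A R0 R1 R01) (I0 : Submodule R0 F) (I1 : Submodule R1 F)
    (h01 : Submodule.span R01 (I0 : Set F) = Submodule.span R01 (I1 : Set F))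
    (hinj0 : Function.Injective (algebraMap R0 F)) (hinj1 : Function.Injective (algebraMap R1 F))
    {J0 : Submodule R0 F} {J1 : Submodule R1 F} (h0 : I0 * J0 = 1) (h1 : I1 * J1 = 1) :
    (lineOfFrames c I0 I1 h01).IsLine :=
  ⟨invertible_of_mul_eq_one hinj0 h0, invertible_of_mul_eq_one hinj1 h1⟩

/-- **LINE-FROM-FRAMES, packaged.**  Invertible frames `I0`, `I1` with the same `R01`-span are the
frames of a framed line. -/
theorem exists_line_of_frames (c : TwoChart A R0 R1 R01)
    (hinj0 : Function.Injective (algebraMap R0 F)) (hinj1 : Function.Injective (algebraMap R1 F))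
    {I0 J0 : Submodule R0 F} {I1 J1 : Submodule R1 F} (h0 : I0 * J0 = 1) (h1 : I1 * J1 = 1)
    (h01 : Submodule.span R01 (I0 : Set F) = Submodule.span R01 (I1 : Set F)) :
    ∃ (M : QC2 A R0 R1 R01) (_ : M.IsLine) (ε : M.N01 →ₗ[R01] F), ε ≠ 0 ∧
      Function.Injective ε ∧ frame0 M ε = I0 ∧ frame1 M ε = I1 :=
  ⟨lineOfFrames c I0 I1 h01, isLine_lineOfFrames c I0 I1 h01 hinj0 hinj1 h0 h1,
    framing c I0 I1 h01, framing_ne_zero c I0 I1 h01 (ne_bot_of_mul_eq_one h0),
    framing_injective c I0 I1 h01, frame0_lineOfFrames c I0 I1 h01,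
    frame1_lineOfFrames c I0 I1 h01⟩

/-- **LINE-FROM-FRAMES with `p`-th powers**: if moreover `I_j ^ p = R_j ∙ f` for ONE `f ≠ 0`, the
class of the line is killed by `p`. -/
theorem exists_line_of_frames_pow (c : TwoChart A R0 R1 R01)
    (hinj0 : Function.Injective (algebraMap R0 F)) (hinj1 : Function.Injective (algebraMap R1 F))
    (hinj01 : Function.Injective (algebraMap R01 F))
    {I0 J0 : Submodule R0 F} {I1 J1 : Submodule R1 F} (h0 : I0 * J0 = 1) (h1 : I1 * J1 = 1)
    (h01 : Submodule.span R01 (I0 : Set F) = Submodule.span R01 (I1 : Set F))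
    (p : ℕ) {f : F} (hf : f ≠ 0) (hp0 : I0 ^ p = Submodule.span R0 {f})
    (hp1 : I1 ^ p = Submodule.span R1 {f}) :
    ∃ (M : QC2 A R0 R1 R01) (hM : M.IsLine) (ε : M.N01 →ₗ[R01] F), ε ≠ 0 ∧
      Function.Injective ε ∧ frame0 M ε = I0 ∧ frame1 M ε = I1 ∧
      (LinePic.mk c M hM) ^ p = 1 := by
  obtain ⟨M, hM, ε, hε, hεinj, hf0, hf1⟩ := exists_line_of_frames c hinj0 hinj1 h0 h1 h01
  refine ⟨M, hM, ε, hε, hεinj, hf0, hf1, ?_⟩
  exact FramesDetermine.pow_eq_one_of_frames_pow c hM hinj0 hinj1 hinj01 hε p hf
    (by rw [hf0, hp0]) (by rw [hf1, hp1])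

end Fermat.Agent.T1B.AD21.LineOfFrames
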