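/-
T1B / cell AD (helper21): `P00` is REFLECTED by a base change `O → O'` inducing a surjection on the
components of the special fibre (`hrefl` of AD-MAIN): `PicX.map c0 O O' x ∈ P00' → x ∈ P00`.
Two lines from `Bal60.Mdeg_map` + `Bal60.P00_eq_ker`.
-/
import Mathlib
import Fermat.Agent.T1B.Bal60.MapP00

set_option autoImplicit false
set_option linter.unusedSectionVars false

universe u

open TensorProduct

namespace Fermat.Agent.T1B.AD21.P00Refl

open Fermat.Agent.Jac Fermat.Agent.Jac.JGroup85Pic Fermat.Agent.T1B.RedN3 Fermat.Agent.T1B.Bal60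
open Fermat.Agent.T1.RedIface75
open scoped Fermat.Agent.Jac.BaseChange75

variable {W B0 B1 B01 : Type u} [CommRing W] [CommRing B0] [CommRing B1] [CommRing B01]
  [Algebra W B0] [Algebra W B1] [Algebra W B01] [Algebra B0 B01] [Algebra B1 B01]
  [IsScalarTower W B0 B01] [IsScalarTower W B1 B01]
  (c0 : TwoChart W B0 B1 B01)
  (O O' : Type u) [CommRing O] [CommRing O'] [Algebra W O] [Algebra W O'] [Algebra O O']
  [IsScalarTower W O O']
  {π : O} {π' : O'} {ι ι' : Type}
  (hg : NodalGood (c0.baseChange O) π ι) (hg' : NodalGood (c0.baseChange O') π' ι')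
  {K K' : Type u} [Field K] [Field K'] [Algebra K K']
  (X : ∀ i, Comp (c0.baseChange O) (hg.P0 i) (hg.P1 i) K)
  (X' : ∀ i', Comp (c0.baseChange O') (hg'.P0 i') (hg'.P1 i') K')
  (φ : ι' → ι) (b : ∀ i', CompBC (X (φ i')) (X' i'))

include b in
/-- **`P00` is reflected by base change** when every component downstairs is hit. -/
theorem mem_P00_of_map_mem_P00 (hφ : Function.Surjective φ) {x : PicX c0 O}
    (h : PicX.map c0 O O' x ∈ P00 hg' X') : x ∈ P00 hg X := by
  rw [P00_eq_ker, MonoidHom.mem_ker] at h ⊢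
  funext i
  obtain ⟨i', rfl⟩ := hφ i
  rw [← Mdeg_map c0 O O' hg hg' X X' φ b x i', h]
  rfl

include b in
theorem map_mem_P00_iff (hφ : Function.Surjective φ) {x : PicX c0 O} :
    PicX.map c0 O O' x ∈ P00 hg' X' ↔ x ∈ P00 hg X :=
  ⟨mem_P00_of_map_mem_P00 c0 O O' hg hg' X X' φ b hφ,
    fun hx => map_mem_P00 c0 O O' hg hg' X X' φ b x hx⟩

end Fermat.Agent.T1B.AD21.P00Refl
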